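/-
Reductions of operators on a finite torsion free module over a discrete valuation ring, and
unipotence of `p`-power order.
-/
import Mathlib

set_option autoImplicit false
set_option linter.unusedSectionVars false

noncomputable section

namespace Fermat.Agent.Auto.Reduce

open IsLocalRing Polynomial

section Power

variable {R : Type*} [Ring R] {p : ℕ}

theorem exists_one_add_pow_prime_pow (hp : p.Prime) (N : R) (b : ℕ) :
    ∃ c : R, (1 + N) ^ p ^ b = 1 + N ^ p ^ b + (p : R) * c := by
  haveI := Fact.mk hp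
  obtain ⟨g, hg⟩ := exists_add_pow_prime_pow_eq hp (1 : ℤ[X]) X b
  refine ⟨N * aeval N g, ?_⟩
  have h := congrArg (aeval N) hg
  simp only [map_add, map_mul, map_pow, map_one, aeval_X, map_natCast, one_pow, mul_one] at h
  rw [← mul_assoc]
  exact h

/-- If `p` and `u - 1` are nilpotent, then `u` has `p`-power order. -/
theorem exists_pow_eq_one (hp : p.Prime) {u : R} {k : ℕ} (hk : (p : R) ^ k = 0)
    (hu : IsNilpotent (u - 1)) : ∃ b : ℕ, u ^ p ^ b = 1 := by
  obtain ⟨J, hJ⟩ := hu
  have hJ' : (u - 1) ^ p ^ J = 0 := pow_eq_zero_of_le (Nat.lt_pow_self hp.one_lt).le hJ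
  obtain ⟨c, hc⟩ := exists_one_add_pow_prime_pow hp (u - 1) J
  rw [add_sub_cancel, hJ', add_zero] at hc
  have h1 : (p : ℤ[X]) ∣ (1 + (p : ℤ[X]) * X) - 1 := ⟨X, by ring⟩
  obtain ⟨g, hg⟩ := dvd_sub_pow_of_dvd_sub h1 k
  refine ⟨J + k, ?_⟩
  rw [pow_add, pow_mul, hc]
  have h := congrArg (aeval c) hg
  simp only [map_sub, map_add, map_mul, map_pow, map_one, aeval_X, map_natCast, one_pow] at h
  rw [pow_succ, hk, zero_mul, zero_mul, sub_eq_zero] at h
  exact h

/-- In characteristic `p`, an element of `p`-power order is unipotent. -/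
theorem isNilpotent_sub_one (hp : p.Prime) (hp0 : (p : R) = 0) {u : R} {b : ℕ}
    (hu : u ^ p ^ b = 1) : IsNilpotent (u - 1) := by
  obtain ⟨c, hc⟩ := exists_one_add_pow_prime_pow hp (u - 1) b
  rw [add_sub_cancel, hu, hp0, zero_mul, add_zero, left_eq_add] at hc
  exact ⟨_, hc⟩

theorem eq_one_of_coprime {u : R} {a b : ℕ} (h : Nat.Coprime a b) (ha : u ^ a = 1)
    (hb : u ^ b = 1) : u = 1 := by
  have := pow_gcd_eq_one.mpr ⟨ha, hb⟩
  rwa [h, pow_one] at this

/-- A sum of powers of a unipotent element is a unit when the number of terms is. -/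
theorem isUnit_geom_sum {S : R} (hS : IsNilpotent (S - 1)) {n : ℕ} (hn : IsUnit (n : R)) :
    IsUnit (∑ i ∈ Finset.range n, S ^ i) := by
  have hX : (X - 1 : ℤ[X]) ∣ (∑ i ∈ Finset.range n, X ^ i) - (n : ℤ[X]) := by
    rw [← C_1, dvd_iff_isRoot]
    simp [eval_finsetSum]
  obtain ⟨g, hg⟩ := hX
  have h := congrArg (aeval S) hg
  simp only [map_sub, map_mul, map_sum, map_pow, map_one, aeval_X, map_natCast] at h
  have hc : Commute (S - 1) (aeval S g) := by
    have := (Commute.all (X - 1 : ℤ[X]) g).map (aeval S)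
    rwa [map_sub, map_one, aeval_X] at this
  rw [← sub_add_cancel (∑ i ∈ Finset.range n, S ^ i) (n : R), h]
  exact (hc.isNilpotent_mul_right hS).isUnit_add_right_of_commute hn (Nat.commute_cast _ n)

end Power

section Module

variable {O : Type} [CommRing O] [IsLocalRing O] [IsNoetherianRing O] {W : Type} [AddCommGroup W]
  [Module O W] [Module.Finite O W]

theorem map_smul_top_mem {I : Ideal O} (f : Module.End O W) {x : W}
    (hx : x ∈ I • (⊤ : Submodule O W)) : f x ∈ I • (⊤ : Submodule O W) := by
  have h := Submodule.mem_map_of_mem (f := f) hx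
  rw [Submodule.map_smul''] at h
  exact (Submodule.smul_mono le_rfl le_top) h

variable (W) in
/-- The reduction of operators modulo a power of the maximal ideal. -/
def redEnd (k : ℕ) : Module.End O W →+*
    Module.End O (W ⧸ (maximalIdeal O ^ k • ⊤ : Submodule O W)) where
  toFun f := Submodule.mapQ _ _ f fun _ hx => map_smul_top_mem f hx
  map_one' := LinearMap.ext fun x => by induction x using Submodule.Quotient.induction_on; rfl
  map_mul' f g := LinearMap.ext fun x => by induction x using Submodule.Quotient.induction_on; rfl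
  map_zero' := LinearMap.ext fun x => by induction x using Submodule.Quotient.induction_on; rfl
  map_add' f g := LinearMap.ext fun x => by induction x using Submodule.Quotient.induction_on; rfl

theorem redEnd_eq_iff {k : ℕ} {f g : Module.End O W} :
    redEnd W k f = redEnd W k g ↔ ∀ x, f x - g x ∈ maximalIdeal O ^ k • (⊤ : Submodule O W) := by
  constructor
  · intro h x
    exact (Submodule.Quotient.eq _).mp (LinearMap.congr_fun h (Submodule.Quotient.mk x))
  · intro h
    refine LinearMap.ext fun x => ?_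
    obtain ⟨x, rfl⟩ := Submodule.Quotient.mk_surjective _ x
    exact (Submodule.Quotient.eq _).mpr (h x)

theorem redEnd_natCast {p : ℕ} (hp : (p : O) ∈ maximalIdeal O) (k : ℕ) :
    (p : Module.End O (W ⧸ (maximalIdeal O ^ k • ⊤ : Submodule O W))) ^ k = 0 := by
  rw [← map_natCast (redEnd W k), ← map_pow, ← map_zero (redEnd W k), redEnd_eq_iff]
  intro x
  rw [LinearMap.zero_apply, sub_zero, ← Nat.cast_pow, Module.End.natCast_apply,
    ← Nat.cast_smul_eq_nsmul O, Nat.cast_pow]
  exact Submodule.smul_mem_smul (Ideal.pow_mem_pow hp k) trivial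

theorem eq_zero_of_redEnd {f : Module.End O W} (h : ∀ k, redEnd W k f = 0) : f = 0 :=
  LinearMap.ext fun x => by
    have hmem : f x ∈ (⨅ k : ℕ, maximalIdeal O ^ k • (⊤ : Submodule O W)) := by
      refine (Submodule.mem_iInf _).mpr fun k => ?_
      have := redEnd_eq_iff.mp ((h k).trans (map_zero _).symm) x
      rwa [LinearMap.zero_apply, sub_zero] at this
    rwa [Ideal.iInf_pow_smul_eq_bot_of_le_jacobson _ (maximalIdeal_le_jacobson _),
      Submodule.mem_bot] at hmem

theorem eq_of_redEnd {f g : Module.End O W} (h : ∀ k, redEnd W k f = redEnd W k g) : f = g :=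
  sub_eq_zero.mp (eq_zero_of_redEnd fun k => by rw [map_sub, h, sub_self])

/-- An operator with invertible reduction is invertible. -/
theorem isUnit_of_redEnd {f : Module.End O W} (h : IsUnit (redEnd W 1 f)) : IsUnit f := by
  have hb := (Module.End.isUnit_iff _).mp h
  have hsurj : Function.Surjective f := by
    refine LinearMap.range_eq_top.mp (top_le_iff.mp ?_)
    refine Submodule.le_of_le_smul_of_le_jacobson_bot Module.Finite.fg_top
      (maximalIdeal_le_jacobson _) fun x _ => ?_
    obtain ⟨y, hy⟩ := hb.2 (Submodule.Quotient.mk x)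
    obtain ⟨y, rfl⟩ := Submodule.Quotient.mk_surjective _ y
    have h1 := (Submodule.Quotient.eq _).mp hy
    rw [pow_one] at h1
    exact Submodule.mem_sup.mpr ⟨f y, ⟨y, rfl⟩, -(f y - x), neg_mem h1, by abel⟩
  exact (Module.End.isUnit_iff _).mpr (OrzechProperty.bijective_of_surjective_endomorphism f hsurj)

/-- Residual nilpotence gives nilpotence at every level. -/
theorem isNilpotent_redEnd {N : Module.End O W}
    (h : ∀ x, ∃ j : ℕ, (N ^ j) x ∈ maximalIdeal O • (⊤ : Submodule O W)) (k : ℕ) :
    IsNilpotent (redEnd W k N) := by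
  classical
  obtain ⟨s, hs⟩ := (Module.Finite.fg_top : (⊤ : Submodule O W).FG)
  choose j hj using h
  set J := s.sup j with hJdef
  have hJ : ∀ x, (N ^ J) x ∈ maximalIdeal O • (⊤ : Submodule O W) := by
    have hle : (⊤ : Submodule O W) ≤ (maximalIdeal O • (⊤ : Submodule O W)).comap (N ^ J) := by
      rw [← hs, Submodule.span_le]
      intro x hx
      rw [SetLike.mem_coe, Submodule.mem_comap, hs]
      obtain ⟨i, hi⟩ := Nat.exists_eq_add_of_le (Finset.le_sup (f := j) hx)
      rw [hJdef, hi, add_comm, pow_add, Module.End.mul_apply]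
      exact map_smul_top_mem _ (hj x)
    exact fun x => hle trivial
  refine ⟨J * k, ?_⟩
  rw [← map_pow, ← map_zero (redEnd W k), redEnd_eq_iff]
  intro x
  rw [LinearMap.zero_apply, sub_zero, pow_mul]
  induction k with
  | zero => rw [pow_zero, pow_zero, one_smul]; exact Submodule.mem_top
  | succ k ih =>
    rw [pow_succ' (N ^ J), Module.End.mul_apply, pow_succ (maximalIdeal O), Submodule.mul_smul]
    exact Submodule.smul_le.mpr (fun a ha y _ => show (N ^ J) (a • y) ∈ _ by
      rw [map_smul]; exact Submodule.smul_mem_smul ha (hJ y) :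
      ∀ a ∈ maximalIdeal O ^ k, ∀ y ∈ (⊤ : Submodule O W), a • y ∈
        (maximalIdeal O ^ k • (maximalIdeal O • (⊤ : Submodule O W))).comap (N ^ J)) ih

end Module

end Fermat.Agent.Auto.Reduce
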