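/-
The trace `galTw σ + cyc σ • galTw σ⁻¹` lies in the algebra of the twisted Hecke and diamond
operators, hence is invariant under conjugation.
-/
import Fermat.Agent.Auto.Galois
import Fermat.Agent.GalRep.Assembly

set_option autoImplicit false
set_option linter.style.haveILetI false
set_option linter.unusedSectionVars false

noncomputable section

namespace Fermat.Agent.Auto

open IsLocalRing
open Fermat.Agent.Galois (GQ)
open Fermat.Agent.GalRep (GoodPrime frobPoly map_frobPoly pow_add_pow_eq_frobPoly cyc cyc_frobenius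
  exists_cyc_level frobeniusPowDensity)
open Fermat.Agent.GalRep.Level (cycM cycM_eq_of_root)

/-- A submodule of a finite module over a local noetherian ring is closed. -/
theorem mem_of_forall_approx {R L : Type*} [CommRing R] [IsLocalRing R] [IsNoetherianRing R]
    [AddCommGroup L] [Module R L] [Module.Finite R L] (E : Submodule R L) {x : L}
    (h : ∀ k : ℕ, ∃ y ∈ E, x - y ∈ maximalIdeal R ^ k • (⊤ : Submodule R L)) : x ∈ E := by
  suffices h0 : E.mkQ x ∈ (⨅ k : ℕ, maximalIdeal R ^ k • (⊤ : Submodule R (L ⧸ E))) by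
    rw [Ideal.iInf_pow_smul_eq_bot_of_le_jacobson _ (maximalIdeal_le_jacobson _),
      Submodule.mem_bot, Submodule.mkQ_apply, Submodule.Quotient.mk_eq_zero] at h0
    exact h0
  refine (Submodule.mem_iInf _).mpr fun k => ?_
  obtain ⟨y, hy, hxy⟩ := h k
  have h1 := Submodule.mem_map_of_mem (f := E.mkQ) hxy
  rw [Submodule.map_smul'', map_sub, Submodule.mkQ_apply _ y,
    (Submodule.Quotient.mk_eq_zero _).mpr hy, sub_zero] at h1
  exact (Submodule.smul_mono le_rfl le_top) h1

/-- Frobenius polynomials stay in a subalgebra. -/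
theorem frobPoly_mem {R A : Type*} [CommRing R] [Ring A] [Algebra R A] (E : Subalgebra R A) {t : A}
    (ht : t ∈ E) (l : ℕ) : ∀ n, frobPoly t (l : A) n ∈ E
  | 0 => by rw [frobPoly]; exact ofNat_mem E 2
  | 1 => by rw [frobPoly]; exact ht
  | n + 2 => by
    rw [frobPoly]
    exact sub_mem (mul_mem ht (frobPoly_mem E ht l (n + 1)))
      (mul_mem (natCast_mem E l) (frobPoly_mem E ht l n))

theorem mul_mem_smul_top {R A : Type*} [CommRing R] [Ring A] [Algebra R A] {I : Ideal R} {f : A}
    (hf : f ∈ I • (⊤ : Submodule R A)) (g h : A) : g * f * h ∈ I • (⊤ : Submodule R A) := by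
  refine Submodule.smul_induction_on hf (fun a ha y _ => ?_) fun x y hx hy => ?_
  · rw [mul_smul_comm, smul_mul_assoc]
    exact Submodule.smul_mem_smul ha trivial
  · rw [mul_add, add_mul]; exact add_mem hx hy

theorem mem_smul_top_of_forall {R L : Type*} [CommRing R] [AddCommGroup L] [Module R L]
    [Module.Finite R L] [Module.Free R L] {I : Ideal R} {f : Module.End R L}
    (h : ∀ v, f v ∈ I • (⊤ : Submodule R L)) : f ∈ I • (⊤ : Submodule R (Module.End R L)) := by
  classical
  let b := Module.Free.chooseBasis R L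
  have hb : f = ∑ i, (b.coord i).smulRight (f (b i)) := b.ext fun j => by
    simp [LinearMap.sum_apply, Finsupp.single_apply, ite_smul]
  rw [hb]
  refine sum_mem fun i _ => ?_
  refine Submodule.smul_induction_on (h (b i)) (fun a ha y _ => ?_) fun x y hx hy => ?_
  · rw [show (b.coord i).smulRight (a • y) = a • (b.coord i).smulRight y from
      LinearMap.ext fun v => smul_comm _ a y]
    exact Submodule.smul_mem_smul ha trivial
  · rw [show (b.coord i).smulRight (x + y) = (b.coord i).smulRight x + (b.coord i).smulRight y from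
      LinearMap.ext fun v => smul_add _ x y]
    exact add_mem hx hy

theorem trace_diff {R A : Type*} [CommRing R] [Ring A] [Algebra R A] (X X' Y Y' : A) (a b : R) :
    X * Y + (a * b) • (Y' * X') - (X + a • X') =
      X * (Y - 1) * 1 + (a * b) • (1 * (Y' - 1) * X') + ((b - 1) * a) • X' := by
  rw [mul_one, mul_sub, mul_one, one_mul, sub_mul, one_mul, smul_sub, sub_mul, one_mul, sub_smul,
    mul_comm b a]
  abel

/-- A trace `G g + χ g • G g⁻¹` lies in a subalgebra if it does on a dense set. -/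
theorem trace_mem {R L : Type*} [CommRing R] [IsLocalRing R] [IsNoetherianRing R] [AddCommGroup L]
    [Module R L] [Module.Finite R L] [Module.Free R L] (G : GQ →* Module.End R L) (χ : GQ →* R)
    (E : Subalgebra R (Module.End R L))
    (hcont : ∀ k : ℕ, ∃ F : IntermediateField ℚ (AlgebraicClosure ℚ), FiniteDimensional ℚ F ∧
      ∀ e : GQ, (∀ x ∈ F, e x = x) →
        (∀ v, G e v - v ∈ maximalIdeal R ^ k • (⊤ : Submodule R L)) ∧ χ e - 1 ∈ maximalIdeal R ^ k)
    (hdense : ∀ (F : IntermediateField ℚ (AlgebraicClosure ℚ)) [FiniteDimensional ℚ F] (g : GQ),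
      ∃ g' : GQ, (∀ x ∈ F, g' x = g x) ∧ G g' + χ g' • G g'⁻¹ ∈ E) (g : GQ) :
    G g + χ g • G g⁻¹ ∈ E := by
  refine mem_of_forall_approx (Subalgebra.toSubmodule E) fun k => ?_
  obtain ⟨F, hF, hk⟩ := hcont k
  obtain ⟨g', hgg, hmem⟩ := hdense F g
  refine ⟨_, hmem, ?_⟩
  set d : GQ := g'⁻¹ * g with hd'
  have hd : ∀ x ∈ F, d x = x := fun x hx => by
    show g'⁻¹ (g x) = x
    rw [← hgg x hx]
    exact g'.symm_apply_apply x
  have hdi : ∀ x ∈ F, d⁻¹ x = x := fun x hx => by
    conv_lhs => rw [← hd x hx]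
    exact d.symm_apply_apply x
  have hg : g = g' * d := by rw [hd']; group
  set J := maximalIdeal R ^ k • (⊤ : Submodule R (Module.End R L))
  have h1 : G d - 1 ∈ J := mem_smul_top_of_forall fun v => (hk d hd).1 v
  have h2 : G d⁻¹ - 1 ∈ J := mem_smul_top_of_forall fun v => (hk d⁻¹ hdi).1 v
  clear_value d
  rw [hg, mul_inv_rev, G.map_mul g' d, G.map_mul d⁻¹ g'⁻¹, χ.map_mul, trace_diff]
  exact add_mem (add_mem (mul_mem_smul_top h1 _ _) (Submodule.smul_mem _ _ (mul_mem_smul_top h2 _ _)))
    (Submodule.smul_mem_smul (Ideal.mul_mem_right _ _ (hk d hd).2) trivial)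

theorem add_mul_of_quadratic {R : Type*} [Ring R] {G G' T l : R} (hG : G * G' = 1)
    (h : G * G - T * G + l = 0) : G + l * G' = T := by
  have h1 := congrArg (· * G') h
  simp only [add_mul, sub_mul, mul_assoc, hG, mul_one, zero_mul] at h1
  rw [← sub_eq_zero, add_sub_right_comm]
  exact h1

variable {M : ℕ} [NeZero M] {Δ : Type} [CommGroup Δ] {c : (ZMod M)ˣ →* Δ}
  {p : ℕ} [Fact p.Prime] {O : Type} [CommRing O] [IsDomain O] [IsDiscreteValuationRing O]
  [Algebra ℤ_[p] O] [Module.Finite ℤ_[p] O] [CharZero O]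

variable (M c O) in
/-- The algebra of the twisted Hecke operators and the diamond operators. -/
def twAlg : Subalgebra O (Module.End O (Lat M c O)) :=
  Algebra.adjoin O (Set.range (twT M c O) ∪ Set.range (latDia M c O))

theorem twT_mem (ℓ : GoodPrime M) : twT M c O ℓ ∈ twAlg M c O :=
  Algebra.subset_adjoin (Or.inl ⟨ℓ, rfl⟩)

theorem latDia_mem (d : (ZMod M)ˣ) : latDia M c O d ∈ twAlg M c O :=
  Algebra.subset_adjoin (Or.inr ⟨d, rfl⟩)

theorem latDia_one : latDia M c O 1 = 1 := latDia_eq_one (map_one c)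

theorem latDia_commute_dia (d e : (ZMod M)ˣ) : Commute (latDia M c O d) (latDia M c O e) := by
  rw [Commute, SemiconjBy, ← latDia_mul, ← latDia_mul, mul_comm]

/-- The Galois action commutes with the algebra. -/
theorem commute_galLat {x : Module.End O (Lat M c O)} (hx : x ∈ twAlg M c O) (g : GQ) :
    Commute (galLat M c p O g) x := by
  induction hx using Algebra.adjoin_induction with
  | mem x hx =>
    rcases hx with ⟨ℓ, rfl⟩ | ⟨d, rfl⟩
    · exact (galLat_latT g ℓ).mul_right (galLat_latDia g _)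
    · exact galLat_latDia g d
  | algebraMap a => exact (Algebra.commutes a _).symm
  | add x y _ _ hx hy => exact hx.add_right hy
  | mul x y _ _ hx hy => exact hx.mul_right hy

/-- The algebra commutes with the diamond operators. -/
theorem commute_latDia {x : Module.End O (Lat M c O)} (hx : x ∈ twAlg M c O) (e : (ZMod M)ˣ) :
    Commute (latDia M c O e) x := by
  induction hx using Algebra.adjoin_induction with
  | mem x hx =>
    rcases hx with ⟨ℓ, rfl⟩ | ⟨d, rfl⟩
    · exact (latT_latDia ℓ e).symm.mul_right (latDia_commute_dia e _)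
    · exact latDia_commute_dia e d
  | algebraMap a => exact (Algebra.commutes a _).symm
  | add x y _ _ hx hy => exact hx.add_right hy
  | mul x y _ _ hx hy => exact hx.mul_right hy

theorem commute_galTw {x : Module.End O (Lat M c O)} (hx : x ∈ twAlg M c O) (g : GQ) :
    Commute (galTw M c p O g) x :=
  (commute_galLat hx g).mul_left (commute_latDia hx _)

variable (M c p O) in
/-- `g + cyc(g) g⁻¹` for the twisted action. -/
def twTr (g : GQ) : Module.End O (Lat M c O) :=
  galTw M c p O g +
    algebraMap O (Module.End O (Lat M c O)) (algebraMap ℤ_[p] O (cyc p g).val) * galTw M c p O g⁻¹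

theorem galTw_mul_inv (g : GQ) : galTw M c p O g * galTw M c p O g⁻¹ = 1 := by
  rw [← map_mul, mul_inv_cancel, map_one]

theorem twTr_frobenius_pow (hΔ : Odd (Nat.card Δ)) (ℓ : GoodPrime M) (hℓp : (ℓ : ℕ) ≠ p)
    (A : ValuationSubring (AlgebraicClosure ℚ)) (hA : A.LiesOverPrime (ℓ : ℕ)) {σ : GQ}
    (hσ : A.IsFrobeniusAt σ (ℓ : ℕ)) (b : ℕ) :
    twTr M c p O (σ ^ b) =
      frobPoly (twT M c O ℓ) ((ℓ : ℕ) : Module.End O (Lat M c O)) b := by
  have hFG := galTw_mul_inv (M := M) (c := c) (p := p) (O := O) σ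
  have hGF : galTw M c p O σ⁻¹ * galTw M c p O σ = 1 := by rw [← map_mul, inv_mul_cancel, map_one]
  have h0 := galTw_frobenius (M := M) (c := c) (p := p) (O := O) hΔ ℓ hℓp A hA σ hσ
  have h' := add_mul_of_quadratic (R := Module.End O (Lat M c O)) hFG h0
  rw [← pow_add_pow_eq_frobPoly hFG hGF h' b, twTr, ← inv_pow, map_pow, map_pow, map_pow,
    Units.val_pow_eq_pow_val, cyc_frobenius p ℓ.1.2 hℓp hA hσ, map_pow, map_natCast, map_pow,
    map_natCast]

variable (p O) in
theorem natCast_p_mem : (p : O) ∈ maximalIdeal O := by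
  have hinj := algebraMap_padic_injective (p := p) (O := O)
  haveI := RingHom.IsIntegral.isLocalHom
    (algebraMap_isIntegral_iff.mpr (inferInstance : Algebra.IsIntegral ℤ_[p] O)) hinj
  by_contra hu
  have hu' : IsUnit (algebraMap ℤ_[p] O p) := by
    rw [map_natCast]; exact notMem_maximalIdeal.mp hu
  exact PadicInt.p_nonunit (isUnit_of_map_unit (algebraMap ℤ_[p] O) _ hu')

theorem twTr_mem (hΔ : Odd (Nat.card Δ)) (g : GQ) : twTr M c p O g ∈ twAlg M c O := by
  have key := trace_mem (R := O) (L := Lat M c O) (galTw M c p O)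
    (((algebraMap ℤ_[p] O).toMonoidHom.comp (Units.coeHom ℤ_[p])).comp (cyc p)) (twAlg M c O)
    ?_ ?_ g
  · rw [twTr, ← Algebra.smul_def]
    exact key
  · intro k
    obtain ⟨F₁, hF₁, h1⟩ := galLat_continuous (M := M) (c := c) (p := p) (O := O) k
    obtain ⟨F₂, hF₂, h2⟩ := exists_cyc_level p k
    obtain ⟨z, hz⟩ := HasEnoughRootsOfUnity.exists_primitiveRoot (AlgebraicClosure ℚ) M
    haveI : FiniteDimensional ℚ (IntermediateField.adjoin ℚ ({z} : Set (AlgebraicClosure ℚ))) :=
      IntermediateField.adjoin.finiteDimensional (Algebra.IsIntegral.isIntegral (R := ℚ) z)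
    haveI := hF₁
    haveI := hF₂
    refine ⟨F₁ ⊔ F₂ ⊔ IntermediateField.adjoin ℚ ({z} : Set (AlgebraicClosure ℚ)), inferInstance,
      fun e he => ⟨fun v => ?_, ?_⟩⟩
    · have hcyc : cycM M e = 1 := cycM_eq_of_root e hz (by
        rw [he z ((le_sup_right : _ ≤ _ ⊔ IntermediateField.adjoin ℚ
          ({z} : Set (AlgebraicClosure ℚ))) (IntermediateField.mem_adjoin_simple_self ℚ z))]
        rcases eq_or_ne M 1 with rfl | hM
        · simp [IsPrimitiveRoot.one_right_iff.mp hz]
        · haveI : Fact (1 < M) := ⟨by have := NeZero.ne M; omega⟩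
          rw [Units.val_one, ZMod.val_one, pow_one])
      have : galTw M c p O e = galLat M c p O e := by
        show galLat M c p O e * _ = _
        rw [hcyc, one_pow, latDia_one, mul_one]
      rw [this]
      exact h1 e (fun x hx => he x ((le_sup_left.trans le_sup_left : F₁ ≤ _) hx)) v
    · obtain ⟨cc, hcc⟩ := h2 e fun x hx => he x ((le_sup_right.trans le_sup_left : F₂ ≤ _) hx)
      show algebraMap ℤ_[p] O (cyc p e).val - 1 ∈ _
      rw [← map_one (algebraMap ℤ_[p] O), ← map_sub, hcc, map_mul, map_pow, map_natCast]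
      exact Ideal.mul_mem_right _ _ (Ideal.pow_mem_pow (natCast_p_mem p O) k)
  · intro F _ g
    obtain ⟨ℓ, hℓ, hbad, A, hA, σ, hσ, b, hb⟩ := frobeniusPowDensity F ({p} ∪ M.primeFactors) g
    simp only [Finset.mem_union, Finset.mem_singleton, not_or] at hbad
    have hℓM : ¬ ℓ ∣ M := fun h => hbad.2 (Nat.mem_primeFactors.mpr ⟨hℓ, h, NeZero.ne M⟩)
    refine ⟨σ ^ b, hb, ?_⟩
    set i : GoodPrime M := ⟨⟨ℓ, hℓ⟩, hℓM⟩ with hi
    have h := twTr_frobenius_pow (M := M) (c := c) (p := p) (O := O) hΔ i hbad.1 A hA hσ b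
    rw [twTr, ← Algebra.smul_def] at h
    refine (congrArg (· ∈ twAlg M c O) h).mpr ?_
    exact frobPoly_mem (R := O) (A := Module.End O (Lat M c O)) (twAlg M c O) (t := twT M c O i)
      (twT_mem i) _ b

/-- The trace is invariant under conjugation. -/
theorem twTr_conj (hΔ : Odd (Nat.card Δ)) (f g : GQ) :
    galTw M c p O (f * g * f⁻¹) +
        algebraMap O (Module.End O (Lat M c O)) (algebraMap ℤ_[p] O (cyc p g).val) *
          galTw M c p O (f * g * f⁻¹)⁻¹ = twTr M c p O g := by
  have h := (commute_galTw (p := p) (twTr_mem (M := M) (c := c) (p := p) (O := O) hΔ g) f).eq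
  rw [show (f * g * f⁻¹)⁻¹ = f * g⁻¹ * f⁻¹ by group, map_mul, map_mul, map_mul, map_mul,
    ← mul_assoc, ← mul_assoc, Algebra.commutes, mul_assoc (galTw M c p O f) _ (galTw M c p O g⁻¹),
    ← add_mul, ← mul_add]
  show galTw M c p O f * twTr M c p O g * _ = _
  rw [h, mul_assoc, galTw_mul_inv, mul_one]

end Fermat.Agent.Auto
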