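/-
The residual part is saturated, stable under the operators, and `T_ℓ - (ℓ + 1)` is invertible on it
when `a ℓ - (ℓ + 1)` is a unit.
-/
import Fermat.Agent.Auto.Inertia.Trace
import Fermat.Agent.Auto.Inertia.Reduce

set_option autoImplicit false
set_option linter.unusedSectionVars false

noncomputable section

namespace Fermat.Agent.Auto

open IsLocalRing
open Fermat.Agent.Galois (GQ)
open Fermat.Agent.GalRep (GoodPrime)

section Saturated

variable {O : Type} [CommRing O] [IsDomain O] [IsDiscreteValuationRing O] {L : Type} [AddCommGroup L]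
  [Module O L] [Module.IsTorsionFree O L]

theorem mem_pow_smul_of_irreducible {ϖ : O} (hϖ : Irreducible ϖ) {k : ℕ} {x : L} :
    x ∈ maximalIdeal O ^ k • (⊤ : Submodule O L) ↔ ∃ y, ϖ ^ k • y = x := by
  rw [hϖ.maximalIdeal_eq, Ideal.span_singleton_pow, Submodule.ideal_span_singleton_smul]
  simp [Submodule.mem_smul_pointwise_iff_exists]

theorem locPart_saturated {ι : Type} {T : ι → Module.End O L} {a : ι → O} {ϖ : O}
    (hϖ : Irreducible ϖ) {x : L} (hx : ϖ • x ∈ locPart T a) : x ∈ locPart T a := fun i k => by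
  obtain ⟨j, hj⟩ := hx i (k + 1)
  refine ⟨j, fun j' hj' => ?_⟩
  have h := hj j' hj'
  rw [map_smul, mem_pow_smul_of_irreducible hϖ] at h
  obtain ⟨y, hy⟩ := h
  rw [mem_pow_smul_of_irreducible hϖ]
  refine ⟨y, smul_right_injective L hϖ.ne_zero ?_⟩
  show ϖ • _ = ϖ • _
  rw [← hy, smul_smul, ← pow_succ']

theorem locPart_pow_saturated {ι : Type} {T : ι → Module.End O L} {a : ι → O} {ϖ : O}
    (hϖ : Irreducible ϖ) : ∀ (k : ℕ) {x : L}, ϖ ^ k • x ∈ locPart T a → x ∈ locPart T a
  | 0, x, hx => by simpa using hx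
  | k + 1, x, hx => locPart_pow_saturated hϖ k
      (locPart_saturated hϖ (by rwa [smul_smul, ← pow_succ']))

/-- The filtration on a saturated part is induced. -/
theorem mem_smul_top_locPart {ι : Type} {T : ι → Module.End O L} {a : ι → O} {k : ℕ}
    {x : locPart T a} (hx : (x : L) ∈ maximalIdeal O ^ k • (⊤ : Submodule O L)) :
    x ∈ maximalIdeal O ^ k • (⊤ : Submodule O (locPart T a)) := by
  obtain ⟨ϖ, hϖ⟩ := IsDiscreteValuationRing.exists_irreducible O
  obtain ⟨y, hy⟩ := (mem_pow_smul_of_irreducible hϖ).mp hx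
  refine (mem_pow_smul_of_irreducible hϖ).mpr
    ⟨⟨y, locPart_pow_saturated hϖ k (by rw [hy]; exact x.2)⟩, Subtype.ext hy⟩

/-- `T i - b` is bijective on the part when `a i - b` is a unit. -/
theorem locPart_sub_eq [Module.Finite O L] {ι : Type} {T : ι → Module.End O L} {a : ι → O} (i : ι)
    (hcomm : ∀ j, Commute (T i) (T j)) {b : O} (hu : IsUnit (a i - b)) :
    (∀ x ∈ locPart T a, ∃ w ∈ locPart T a, T i w = x + b • w) ∧
      ∀ w ∈ locPart T a, T i w = b • w → w = 0 := by
  set W := locPart T a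
  set U : Module.End O W := (T i).restrict fun x hx => map_locPart_le (T i) hcomm hx with hU
  set X : Module.End O W := U - algebraMap O (Module.End O W) b with hX
  have hN : IsNilpotent (Reduce.redEnd W 1 (U - algebraMap O (Module.End O W) (a i))) := by
    refine Reduce.isNilpotent_redEnd (fun x => ?_) 1
    obtain ⟨j, hj⟩ := (mem_locPart.mp x.2) i 1
    refine ⟨j, ?_⟩
    have key : ∀ n : ℕ, (((U - algebraMap O (Module.End O W) (a i)) ^ n) x : L) =
        ((T i - algebraMap O (Module.End O L) (a i)) ^ n) (x : L) := by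
      intro n
      induction n with
      | zero => rfl
      | succ n ih =>
        rw [pow_succ', pow_succ', Module.End.mul_apply, Module.End.mul_apply, ← ih]
        rfl
    rw [← pow_one (maximalIdeal O)]
    exact mem_smul_top_locPart (by rw [key]; exact hj j le_rfl)
  have hXu : IsUnit X := by
    refine Reduce.isUnit_of_redEnd ?_
    have e : X = (U - algebraMap O (Module.End O W) (a i)) +
        algebraMap O (Module.End O W) (a i - b) := by
      rw [hX, map_sub]; abel
    rw [e, map_add]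
    exact hN.isUnit_add_right_of_commute ((hu.map (algebraMap O _)).map (Reduce.redEnd W 1))
      ((show Commute (U - algebraMap O (Module.End O W) (a i)) (algebraMap O _ (a i - b)) from
        (Algebra.commutes _ _).symm).map (Reduce.redEnd W 1))
  have hb := (Module.End.isUnit_iff _).mp hXu
  refine ⟨fun x hx => ?_, fun w hw h => ?_⟩
  · obtain ⟨w, hw⟩ := hb.2 ⟨x, hx⟩
    refine ⟨w, w.2, ?_⟩
    have := congrArg Subtype.val hw
    change T i (w : L) - b • (w : L) = x at this
    exact sub_eq_iff_eq_add.mp this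
  · have : X ⟨w, hw⟩ = 0 := Subtype.ext (sub_eq_zero.mpr h)
    exact congrArg Subtype.val (hb.1 (this.trans (map_zero X).symm))

end Saturated

variable {M : ℕ} [NeZero M] {Δ : Type} [CommGroup Δ] {c : (ZMod M)ˣ →* Δ}
  {p : ℕ} [Fact p.Prime] {O : Type} [CommRing O] [IsDomain O] [IsDiscreteValuationRing O]
  [Algebra ℤ_[p] O] [Module.Finite ℤ_[p] O] [CharZero O] {S : Finset ℕ} {a : ℕ → O}

theorem galLat_mem_latLoc (g : GQ) {x : Lat M c O} (hx : x ∈ latLoc M c O S a) :
    galLat M c p O g x ∈ latLoc M c O S a :=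
  map_locPart_le (L := Lat M c O) (T := fun i : PrimeOff M S => latT M c O i.1)
    (a := fun i => a ((i.1 : Nat.Primes) : ℕ)) (galLat M c p O g) (fun i => galLat_latT g i.1) hx

theorem latDia_mem_latLoc (d : (ZMod M)ˣ) {x : Lat M c O} (hx : x ∈ latLoc M c O S a) :
    latDia M c O d x ∈ latLoc M c O S a :=
  map_locPart_le (L := Lat M c O) (T := fun i : PrimeOff M S => latT M c O i.1)
    (a := fun i => a ((i.1 : Nat.Primes) : ℕ)) (latDia M c O d) (fun i => (latT_latDia i.1 d).symm) hx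

theorem latT_mem_latLoc (ℓ : GoodPrime M) {x : Lat M c O} (hx : x ∈ latLoc M c O S a) :
    latT M c O ℓ x ∈ latLoc M c O S a :=
  map_locPart_le (L := Lat M c O) (T := fun i : PrimeOff M S => latT M c O i.1)
    (a := fun i => a ((i.1 : Nat.Primes) : ℕ)) (latT M c O ℓ) (fun i => latT_commute ℓ i.1) hx

/-- `T_ℓ - (ℓ + 1)` is bijective on the residual part. -/
theorem exists_latT_sub_eq {ℓ : ℕ} (hℓ : ℓ.Prime) (hℓM : ¬ ℓ ∣ M) (hℓS : ℓ ∉ S)
    (hu : IsUnit (a ℓ - ((ℓ : O) + 1))) :
    (∀ x ∈ latLoc M c O S a, ∃ w ∈ latLoc M c O S a,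
      latT M c O ⟨⟨ℓ, hℓ⟩, hℓM⟩ w = x + ((ℓ : O) + 1) • w) ∧
    ∀ w ∈ latLoc M c O S a, latT M c O ⟨⟨ℓ, hℓ⟩, hℓM⟩ w = ((ℓ : O) + 1) • w → w = 0 := by
  exact locPart_sub_eq (L := Lat M c O) (T := fun i : PrimeOff M S => latT M c O i.1)
    (a := fun i => a ((i.1 : Nat.Primes) : ℕ)) ⟨⟨⟨ℓ, hℓ⟩, hℓM⟩, by simpa using hℓS⟩
    (fun j => latT_commute _ j.1) hu

end Fermat.Agent.Auto
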