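/-
Restriction of lattice classes to the principal congruence subgroup: compatibility with Galois,
diamond operators and Hecke operators.
-/
import Fermat.Agent.Auto.Galois
import Fermat.Agent.Auto.Local.Vanish

set_option autoImplicit false
set_option linter.style.haveILetI false
set_option linter.unusedSectionVars false

noncomputable section

namespace Fermat.Agent.Auto

open CongruenceSubgroup
open Fermat.Agent.GalRep (IMat GoodPrime)
open Fermat.Agent.GalRep.Level
open Fermat.Agent.Galois (GQ)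
open Fermat.Agent.DS (eleven_mul parMap coe_parMap diaMat diaMat_mem diaMat_eleven isDiamond_diaMat_prime)
open Fermat.Agent.Auto.Local (lvlRed actN actQ conjN coe_conjN)
open Fermat.Agent.NewVec (liftQ red_liftQ exists_liftX)
open scoped MatrixGroups

/-- Transfers along other representatives of the same cosets, restricted to a smaller group. -/
theorem isTransfer_change {ι κ : Type} [Fintype ι] [Fintype κ] {G G' : Subgroup SL(2, ℤ)}
    (hle : G' ≤ G) {β : ι → IMat} {β' : κ → IMat} {B : Type} [AddCommGroup B]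
    {χ χ' : Additive G →+ B} (h : IsTransfer G G β χ χ') (π : κ ≃ ι) (a : κ → G)
    (ha : ∀ j, β' j = ((a j : SL(2, ℤ)) : IMat) * β (π j))
    (hmem : ∀ (γ : G') (j j' : κ) (x : SL(2, ℤ)),
      β' j * ((γ : SL(2, ℤ)) : IMat) = (x : IMat) * β' j' → x ∈ G') :
    IsTransfer G' G' β' (χ.comp (Subgroup.inclusion hle).toAdditive)
      (χ'.comp (Subgroup.inclusion hle).toAdditive) := fun γ => by
  obtain ⟨e, g, hg, hs⟩ := h (Subgroup.inclusion hle γ)
  set e' : Equiv.Perm κ := (π.trans e).trans π.symm with he'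
  have heq : ∀ j, β' j * ((γ : SL(2, ℤ)) : IMat) =
      (((a j * g (π j) * (a (e' j))⁻¹ : G) : SL(2, ℤ)) : IMat) * β' (e' j) := fun j => by
    have h1 : π (e' j) = e (π j) := by simp [he']
    have hg' : β (π j) * ((γ : SL(2, ℤ)) : IMat) = ((g (π j) : SL(2, ℤ)) : IMat) * β (e (π j)) :=
      hg (π j)
    rw [ha j, mul_assoc, hg', ha (e' j), h1, Subgroup.coe_mul, Subgroup.coe_mul,
      Subgroup.coe_inv, Matrix.SpecialLinearGroup.coe_mul, Matrix.SpecialLinearGroup.coe_mul]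
    simp only [mul_assoc]
    congr 2
    rw [← mul_assoc, ← Matrix.SpecialLinearGroup.coe_mul, inv_mul_cancel,
      Matrix.SpecialLinearGroup.coe_one, one_mul]
  refine ⟨e', fun j => ⟨_, hmem γ j (e' j) _ (heq j)⟩, heq, ?_⟩
  show χ' (Additive.ofMul (Subgroup.inclusion hle γ)) =
    ∑ j, χ (Additive.ofMul (a j * g (π j) * (a (e' j))⁻¹))
  simp only [ofMul_mul, ofMul_inv, map_add, map_neg, Finset.sum_add_distrib,
    Finset.sum_neg_distrib]
  rw [Equiv.sum_comp e' (fun j => χ (Additive.ofMul (a j))),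
    Equiv.sum_comp π (fun i => χ (Additive.ofMul (g i))), ← hs]
  abel

variable {q m : ℕ} [NeZero q] [NeZero m] {Δ : Type} [CommGroup Δ] {c : (ZMod (q * m))ˣ →* Δ}
  {p : ℕ} [Fact p.Prime] {O : Type} [CommRing O]

variable (c) in
/-- The restriction to `Γ(q m)` of a lattice element, with coefficients pushed by a functional. -/
def resLat (f : O →+ ℤ_[p]) : Lat (q * m) c O →+ ParG (Gamma (q * m)) ℤ_[p] :=
  AddMonoidHom.mk'
    (fun v => ⟨(f.comp (toParG v : Additive (grp (q * m) c) →+ O)).comp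
        (Subgroup.inclusion gamma_le_grp).toAdditive, fun γ hγ => by
      show f ((toParG v : Additive (grp (q * m) c) →+ O)
        (Additive.ofMul (Subgroup.inclusion gamma_le_grp γ))) = 0
      rw [(toParG v).2 _ (show _ = _ from hγ), map_zero]⟩)
    fun v w => Subtype.ext (AddMonoidHom.ext fun γ => map_add f _ _)

theorem resLat_apply (f : O →+ ℤ_[p]) (v : Lat (q * m) c O) (γ : Gamma (q * m)) :
    (resLat c f v : Additive (Gamma (q * m)) →+ ℤ_[p]) (Additive.ofMul γ) =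
      f ((v : Additive (grp (q * m) c) →+ O)
        (Additive.ofMul (Subgroup.inclusion gamma_le_grp γ))) := rfl

theorem lvlRed_resLat (k : ℕ) (f : O →+ ℤ_[p]) (v : Lat (q * m) c O) :
    ((lvlRed k (resLat c f v) : ParG (Gamma (q * m)) (ZMod (p ^ k))) :
        Additive (Gamma (q * m)) →+ ZMod (p ^ k)) =
      ((parMap (grp (q * m) c) ((PadicInt.toZModPow k).toAddMonoidHom.comp f) (toParG v) :
        ParG (grp (q * m) c) (ZMod (p ^ k))) : Additive (grp (q * m) c) →+ ZMod (p ^ k)).comp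
          (Subgroup.inclusion gamma_le_grp).toAdditive := rfl

section Galois

variable [IsDomain O] [IsDiscreteValuationRing O] [Algebra ℤ_[p] O] [Module.Finite ℤ_[p] O]
  [CharZero O]

/-- Galois commutes with restriction. -/
theorem galG_resLat (k : ℕ) [NeZero (p ^ k)] (σ : GQ) (f : O →+ ℤ_[p]) (v : Lat (q * m) c O) :
    galG (isLevel_gamma (q * m)) (p ^ k) σ (lvlRed k (resLat c f v)) =
      lvlRed k (resLat c f (galLat (q * m) c p O σ v)) := by
  refine Subtype.ext ((galG_restrict (isLevel_grp (c := c)) (isLevel_gamma (q * m)) gamma_le_grp σ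
    (χ' := lvlRed k (resLat c f v)) (lvlRed_resLat k f v)).trans ?_)
  rw [lvlRed_resLat, galLat_spec k σ ((PadicInt.toZModPow k).toAddMonoidHom.comp f) v]

end Galois

theorem latDia_apply_conj (d : (ZMod (q * m))ˣ) (v : Lat (q * m) c O) {g : SL(2, ℤ)}
    (hg : g ∈ Gamma0 (q * m)) (hgd : ((g 1 1 : ℤ) : ZMod (q * m)) = d) (γ : grp (q * m) c) :
    ((latDia (q * m) c O d v : Lat (q * m) c O) : Additive (grp (q * m) c) →+ O) (Additive.ofMul γ) =
      (v : Additive (grp (q * m) c) →+ O)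
        (Additive.ofMul ⟨g * γ * g⁻¹, conj_mem_grp hg γ.2⟩) := by
  set δ := diaMat d
  have hδ : δ ∈ Gamma0 (q * m) := diaMat_mem d
  have hdef : ((latDia (q * m) c O d v : Lat (q * m) c O) : Additive (grp (q * m) c) →+ O)
      (Additive.ofMul γ) = (v : Additive (grp (q * m) c) →+ O)
        (Additive.ofMul ⟨δ * γ * δ⁻¹, conj_mem_grp hδ γ.2⟩) := by
    show (isReps_grp_diamond (c := c) hδ).transfer _ _ = _
    rw [DS.IsReps.transfer_apply, Fintype.sum_unique,
      ((isReps_grp_diamond (c := c) hδ).unique (i := ()) (j := ())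
        (g := ⟨δ * γ * δ⁻¹, conj_mem_grp hδ γ.2⟩) (by
        rw [← Matrix.SpecialLinearGroup.coe_mul, ← Matrix.SpecialLinearGroup.coe_mul]
        simp [mul_assoc])).2]
  have ht : δ * g⁻¹ ∈ grp (q * m) c := by
    refine mem_grp_of_eleven (mul_mem hδ (inv_mem hg)) (one_mem _) ?_
    rw [eleven_mul hδ, diaMat_eleven, ← hgd, ← eleven_mul hg, mul_inv_cancel]
  rw [hdef, show (⟨δ * γ * δ⁻¹, conj_mem_grp hδ γ.2⟩ : grp (q * m) c) =
    ⟨δ * g⁻¹, ht⟩ * ⟨g * γ * g⁻¹, conj_mem_grp hg γ.2⟩ * ⟨δ * g⁻¹, ht⟩⁻¹ from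
      Subtype.ext (by simp [mul_assoc]), ofMul_mul, ofMul_mul, ofMul_inv, map_add, map_add, map_neg,
    add_neg_cancel_comm]

/-- Translates by elements of `Γ₀` are diamond operators. -/
theorem actN_resLat (f : O →+ ℤ_[p]) (v : Lat (q * m) c O) {g : SL(2, ℤ)}
    (hg : g ∈ Gamma0 (q * m)) {d : (ZMod (q * m))ˣ}
    (hgd : ((g 1 1 : ℤ) : ZMod (q * m)) = d) :
    actN g (resLat c f v) = resLat c f (latDia (q * m) c O d v) := by
  refine Subtype.ext (AddMonoidHom.ext fun z => ?_)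
  obtain ⟨γ, rfl⟩ := Additive.ofMul.surjective z
  rw [Local.actN_apply, resLat_apply, resLat_apply, latDia_apply_conj d v hg hgd]
  rfl

/-- The representatives on `Γ(q m)` at a multiple of the level. -/
theorem isTransfer_resLat {N ℓ : ℕ} [NeZero ℓ] (hmN : m ∣ N) (hℓ : ℓ.Prime)
    (hℓM : ¬ ℓ ∣ q * m) (hℓ1 : (ℓ : ZMod (q * N)) = 1) (f : O →+ ℤ_[p])
    (v : Lat (q * m) c O) :
    IsTransfer (Gamma (q * m)) (Gamma (q * m)) (heckeRepG (q * N) ℓ 1)
      (resLat c f v : Additive (Gamma (q * m)) →+ ℤ_[p])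
      (resLat c f (latT (q * m) c O ⟨⟨ℓ, hℓ⟩, hℓM⟩ v) : Additive (Gamma (q * m)) →+ ℤ_[p]) := by
  haveI : Fact ℓ.Prime := ⟨hℓ⟩
  obtain ⟨N', rfl⟩ := hmN
  have hdvd : q * m ∣ q * (m * N') := ⟨N', (mul_assoc q m N').symm⟩
  have h1 : (ℓ : ZMod (q * m)) = 1 := by
    have := congrArg (ZMod.castHom hdvd (ZMod (q * m))) hℓ1
    rwa [map_natCast, map_one] at this
  set R := diaMat (ZMod.unitOfCoprime _ (hℓ.coprime_iff_not_dvd.2 hℓM))
  have hR : IsDiamond (q * m) ℓ R :=
    isDiamond_diaMat_prime (hℓ.coprime_iff_not_dvd.2 hℓM)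
  have htr := (isReps_grp (c := c) hℓ hℓM hR).isTransfer
    (f.comp (v : Additive (grp (q * m) c) →+ O))
  rw [DS.IsReps.transfer_comp] at htr
  have hRmem : R ∈ grp (q * m) c := by
    refine gamma1_le_grp ((Gamma1_mem _ _).mpr ⟨?_, ?_, hR.2.2.1⟩)
    · simpa [h1] using hR.1
    · rw [hR.2.2.2, h1]
  have hℓn : (N' : ZMod ℓ) ≠ 0 := fun h0 => by
    have hd : ℓ ∣ q * (m * N') :=
      ((ZMod.natCast_eq_zero_iff _ _).mp h0).trans ⟨q * m, by ring⟩
    have := congrArg (ZMod.castHom hd (ZMod ℓ)) hℓ1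
    rw [map_natCast, ZMod.natCast_self, map_one] at this
    exact zero_ne_one this
  let π₀ : Fin ℓ ≃ Fin ℓ := mulPerm (Units.mk0 (N' : ZMod ℓ) hℓn)
  have hπ : ∀ b : Fin ℓ, (ℓ : ℤ) ∣ (b : ℤ) * N' - (π₀ b : ℕ) := fun b => by
    rw [← ZMod.intCast_zmod_eq_zero_iff_dvd]
    push_cast
    have := mulPerm_spec (Units.mk0 (N' : ZMod ℓ) hℓn) b
    rw [Units.val_mk0] at this
    rw [this]; ring
  choose k hk using hπ
  let a : Option (Fin ℓ) → grp (q * m) c := fun i => Option.elim i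
    ⟨R⁻¹, inv_mem hRmem⟩
    fun b => ⟨⟨!![1, ((q * m : ℕ) : ℤ) * k b; 0, 1], by simp [Matrix.det_fin_two_of]⟩,
      gamma1_le_grp ((Gamma1_mem _ _).mpr ⟨by simp, by simp, by simp⟩)⟩
  refine isTransfer_change gamma_le_grp htr (Equiv.optionCongr π₀) a ?_ ?_
  · rintro (_ | b)
    · show ((1 : SL(2, ℤ)) : IMat) * !![(ℓ : ℤ), 0; 0, 1] =
        ((R⁻¹ : SL(2, ℤ)) : IMat) * ((R : IMat) * !![(ℓ : ℤ), 0; 0, 1])
      rw [← mul_assoc, ← Matrix.SpecialLinearGroup.coe_mul, inv_mul_cancel]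
    · show !![1, (b : ℤ) * ((q * (m * N') : ℕ) : ℤ); 0, (ℓ : ℤ)] =
        !![1, ((q * m : ℕ) : ℤ) * k b; 0, 1] *
          !![1, ((π₀ b : ℕ) : ℤ) * ((q * m : ℕ) : ℤ); 0, (ℓ : ℤ)]
      rw [Matrix.mul_fin_two]
      have := hk b
      ext i j
      fin_cases i <;> fin_cases j <;> simp <;> push_cast <;>
        linear_combination ((q : ℤ) * m) * this
  · intro γ j j' x hx
    have hred : ∀ i, (heckeRepG (q * (m * N')) ℓ 1 i).map (Int.castRingHom (ZMod (q * m))) = 1 := by
      intro i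
      have hz : ((q * (m * N') : ℕ) : ZMod (q * m)) = 0 :=
        (ZMod.natCast_eq_zero_iff _ _).mpr hdvd
      push_cast at hz
      ext s t
      rcases i with _ | b <;> fin_cases s <;> fin_cases t <;>
        simp [heckeRepG, h1, hz, Matrix.mul_apply, Fin.sum_univ_two]
    refine red_eq_one_iff.mp (Subtype.ext ?_)
    have h2 := congrArg (fun X : IMat => X.map (Int.castRingHom (ZMod (q * m)))) hx
    simp only [Matrix.map_mul, hred, one_mul, mul_one] at h2
    have h3 : (red (q * m) (γ : SL(2, ℤ)) : Matrix (Fin 2) (Fin 2) (ZMod (q * m))) = 1 := by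
      rw [red_eq_one_iff.mpr γ.2, Matrix.SpecialLinearGroup.coe_one]
    exact h2.symm.trans h3

/-- Restriction to `Γ(q m)` is injective. -/
theorem eq_zero_of_resLat [IsDomain O] [CharZero O] [Algebra ℤ_[p] O] [Module.Finite ℤ_[p] O]
    [Module.IsTorsionFree ℤ_[p] O] {v : Lat (q * m) c O}
    (h : ∀ f : O →+ ℤ_[p], resLat c f v = 0) : v = 0 := by
  let b := Module.Free.chooseBasis ℤ_[p] O
  refine Subtype.ext (AddMonoidHom.ext fun z => ?_)
  obtain ⟨x, rfl⟩ := Additive.ofMul.surjective z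
  set i := orderOf (red (q * m) (x : SL(2, ℤ))) with hi
  have hmem : ((x ^ i : grp (q * m) c) : SL(2, ℤ)) ∈ Gamma (q * m) := red_eq_one_iff.mp (by
    rw [SubgroupClass.coe_pow, map_pow, pow_orderOf_eq_one])
  have h0 : (v : Additive (grp (q * m) c) →+ O) (Additive.ofMul (x ^ i)) = 0 :=
    b.ext_elem fun j => by
      rw [map_zero, Finsupp.zero_apply]
      exact congrArg (fun χ : ParG (Gamma (q * m)) ℤ_[p] =>
        (χ : Additive (Gamma (q * m)) →+ ℤ_[p]) (Additive.ofMul ⟨_, hmem⟩))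
        (h (b.coord j).toAddMonoidHom)
  rw [ofMul_pow, map_nsmul, nsmul_eq_mul] at h0
  exact (mul_eq_zero.mp h0).resolve_left (Nat.cast_ne_zero.mpr (orderOf_pos _).ne')

end Fermat.Agent.Auto
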