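/-
Weighted sums of translates over `SL₂(ℤ/q)`: the Bruhat decomposition reduces them to sums of
diamond translates.
-/
import Fermat.Agent.Auto.Inertia.Restrict

set_option autoImplicit false
set_option linter.style.haveILetI false
set_option linter.unusedSectionVars false

noncomputable section

namespace Fermat.Agent.Auto

open CongruenceSubgroup
open Fermat.Agent.GalRep.Level
open Fermat.Agent.Galois (GQ)
open Fermat.Agent.Auto.Local (actN actQ actQ_mul actQ_eq)
open Fermat.Agent.NewVec (liftQ red_liftQ exists_liftX unip unip_add torus inertiaFld mem_inertiaFld)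
open scoped MatrixGroups

variable {q m : ℕ} [NeZero q] [NeZero m] [hqm : Fact (Nat.Coprime q m)]

variable (m) in
/-- The unit modulo `q m` that is `a` modulo `q` and one modulo `m`. -/
def crtU : (ZMod q)ˣ →* (ZMod (q * m))ˣ :=
  (Units.map (ZMod.chineseRemainder hqm.out).symm.toMonoidHom).comp
    (MulEquiv.prodUnits.symm.toMonoidHom.comp (MonoidHom.inl (ZMod q)ˣ (ZMod m)ˣ))

theorem chineseRemainder_crtU (a : (ZMod q)ˣ) :
    ZMod.chineseRemainder hqm.out ((crtU m a : (ZMod (q * m))ˣ) : ZMod (q * m)) =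
      ((a : ZMod q), (1 : ZMod m)) :=
  (ZMod.chineseRemainder hqm.out).apply_symm_apply _

theorem cast_eq_crtU {x : ℤ} {a : (ZMod q)ˣ} (h1 : (x : ZMod q) = a) (h2 : (x : ZMod m) = 1) :
    (x : ZMod (q * m)) = ((crtU m a : (ZMod (q * m))ˣ) : ZMod (q * m)) := by
  refine (ZMod.chineseRemainder hqm.out).injective ?_
  rw [chineseRemainder_crtU, map_intCast]
  exact Prod.ext ((Prod.fst_intCast _).trans h1) ((Prod.snd_intCast _).trans h2)

/-- The cyclotomic exponent of inertia at `q`. -/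
theorem cycM_inertia_crtU {A : ValuationSubring (AlgebraicClosure ℚ)} (hq : q.Prime)
    (hA : A.LiesOverPrime q) (hqm' : ¬ q ∣ m) {σ : GQ} (hσ : σ ∈ A.inertiaSubgroupIn ℚ) :
    cycM (q * m) σ = crtU m (cycM q σ) := by
  have hfix : ∀ y ∈ inertiaFld A, σ y = y := fun y hy => (mem_inertiaFld A).mp hy σ hσ
  obtain ⟨x, hx⟩ := ZMod.intCast_surjective ((cycM (q * m) σ : (ZMod (q * m))ˣ) : ZMod (q * m))
  refine Units.ext (hx.symm.trans (cast_eq_crtU ?_ ?_))
  · rw [← cycM_castHom (dvd_mul_right q m) σ]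
    show _ = ZMod.castHom (dvd_mul_right q m) (ZMod q) (cycM (q * m) σ : ZMod (q * m))
    rw [← hx, map_intCast]
  · have h := congrArg (fun u : (ZMod m)ˣ => (u : ZMod m))
      ((cycM_castHom (dvd_mul_left m q) σ).trans (NewVec.cycM_eq_one_of_fix (m := m) hq hA (rfl : q * m = q * m) hqm' hfix))
    change ZMod.castHom (dvd_mul_left m q) (ZMod m) (cycM (q * m) σ : ZMod (q * m)) = 1 at h
    rwa [← hx, map_intCast] at h

variable {Δ : Type} [CommGroup Δ] {c : (ZMod (q * m))ˣ →* Δ} {p : ℕ} [Fact p.Prime] {O : Type}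
  [CommRing O]

/-- An upper triangular translate is a diamond operator. -/
theorem actQ_resLat {x : SL(2, ZMod q)} (hx : x 1 0 = 0) {d : (ZMod q)ˣ}
    (hd : x 1 1 = (d : ZMod q)) (f : O →+ ℤ_[p]) (v : Lat (q * m) c O) :
    actQ q m x (resLat c f v) = resLat c f (latDia (q * m) c O (crtU m d) v) := by
  have hm := Gamma_mem.mp (exists_liftX q m x).choose_spec.2
  have hred : ∀ i j, ((liftQ q m x i j : ℤ) : ZMod q) = x i j := fun i j => by
    rw [← red_apply, red_liftQ]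
  have hg : liftQ q m x ∈ Gamma0 (q * m) := by
    rw [Gamma0_mem]
    refine (ZMod.chineseRemainder hqm.out).injective ?_
    rw [map_intCast, map_zero]
    exact Prod.ext ((Prod.fst_intCast _).trans ((hred 1 0).trans hx))
      ((Prod.snd_intCast _).trans hm.2.2.1)
  exact actN_resLat f v hg (cast_eq_crtU ((hred 1 1).trans hd) hm.2.2.2)

omit hqm in
omit hqm in
theorem mul_entry (A B : SL(2, ZMod q)) (i j : Fin 2) :
    (A * B) i j = A i 0 * B 0 j + A i 1 * B 1 j := by
  rw [Matrix.SpecialLinearGroup.coe_mul, Matrix.mul_apply, Fin.sum_univ_two]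

/-- The element `(0 -1; 1 0)`. -/
def wey : SL(2, ZMod q) := ⟨!![0, -1; 1, 0], by simp [Matrix.det_fin_two_of]⟩

/-- Bruhat decomposition of a conjugate. -/
theorem conjA_mul_unip {g : SL(2, ZMod q)} {α : (ZMod q)ˣ} (hα : g 1 0 = (α : ZMod q))
    (a : (ZMod q)ˣ) (w : ZMod q) :
    conjA a g * unip q w =
      unip q ((a : ZMod q) * g 0 0 * ((α⁻¹ : (ZMod q)ˣ) : ZMod q)) * torus q (a * α⁻¹) *
        (wey * unip q (w + (a : ZMod q) * g 1 1 * ((α⁻¹ : (ZMod q)ˣ) : ZMod q))) := by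
  have hdet : g 0 0 * g 1 1 - g 0 1 * (α : ZMod q) = 1 := by
    rw [← hα, ← Matrix.det_fin_two]; exact g.2
  refine Subtype.ext ?_
  show (!![g 0 0, (a : ZMod q) * g 0 1; ((a⁻¹ : (ZMod q)ˣ) : ZMod q) * g 1 0, g 1 1] :
      Matrix (Fin 2) (Fin 2) (ZMod q)) * !![1, w; 0, 1] =
    !![1, _; 0, 1] * !![((a * α⁻¹ : (ZMod q)ˣ) : ZMod q), 0; 0,
      (((a * α⁻¹)⁻¹ : (ZMod q)ˣ) : ZMod q)] * (!![0, -1; 1, 0] * !![1, _; 0, 1])
  rw [hα, mul_inv_rev, inv_inv, Units.val_mul, Units.val_mul]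
  have h1 := Units.mul_inv a
  have h2 := Units.mul_inv α
  generalize ((a⁻¹ : (ZMod q)ˣ) : ZMod q) = ai at h1 ⊢
  generalize ((α⁻¹ : (ZMod q)ˣ) : ZMod q) = αi at h2 ⊢
  ext i j
  fin_cases i <;> fin_cases j <;> simp [Matrix.mul_apply, Fin.sum_univ_two]
  · linear_combination -(g 0 0) * (α : ZMod q) * αi * h1 - g 0 0 * h2
  · linear_combination (-(g 0 0) * (α : ZMod q) * αi * w
      - (g 0 0) * (g 1 1) * αi * αi * (α : ZMod q) * (a : ZMod q)) * h1
      - (g 0 0 * w + (g 0 1) * (a : ZMod q) + (g 0 0) * (g 1 1) * αi * (a : ZMod q)) * h2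
      - (αi * (a : ZMod q)) * hdet
  · ring
  · linear_combination -(g 1 1) * (α : ZMod q) * αi * h1 - g 1 1 * h2

/-- The sums vanish when the plain and the diamond-weighted sums vanish. -/
theorem sum_actQ_eq_zero [IsDomain O] [IsDiscreteValuationRing O] [CharZero O] [Algebra ℤ_[p] O]
    [Module.Finite ℤ_[p] O] [Fact q.Prime] (Φ : (ZMod q)ˣ → Lat (q * m) c O) (h1 : ∑ a, Φ a = 0)
    (h2 : ∑ a, latDia (q * m) c O (crtU m a⁻¹) (Φ a) = 0) (f : O →+ ℤ_[p]) (g : SL(2, ZMod q)) :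
    ∑ w : ZMod q, ∑ a : (ZMod q)ˣ, actQ q m (conjA a g * unip q w) (resLat c f (Φ a)) = 0 := by
  rcases eq_or_ne (g 1 0) 0 with h0 | h0
  · have hu : IsUnit (g 1 1) := by
      have hdet : g 0 0 * g 1 1 - g 0 1 * g 1 0 = 1 := by rw [← Matrix.det_fin_two]; exact g.2
      rw [h0, mul_zero, sub_zero] at hdet
      exact IsUnit.of_mul_eq_one_right _ hdet
    refine Finset.sum_eq_zero fun w _ => ?_
    rw [Finset.sum_congr rfl fun a _ => actQ_resLat (d := hu.unit) (x := conjA a g * unip q w) ?_ ?_ f _,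
      ← map_sum, ← map_sum, h1, map_zero, map_zero]
    · rw [mul_entry]
      show _ * g 1 0 * 1 + g 1 1 * 0 = 0
      rw [h0, mul_zero, zero_mul, mul_zero, add_zero]
    · rw [mul_entry]
      show _ * g 1 0 * w + g 1 1 * 1 = g 1 1
      rw [h0, mul_zero, zero_mul, zero_add, mul_one]
  · obtain ⟨α, hα⟩ : IsUnit (g 1 0) := isUnit_iff_ne_zero.mpr h0
    rw [Finset.sum_comm]
    have hT : ∀ (a : (ZMod q)ˣ),
        ∑ w : ZMod q, actQ q m (conjA a g * unip q w) (resLat c f (Φ a)) =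
          ∑ w : ZMod q, actQ q m (wey * unip q w) (resLat c f
            (latDia (q * m) c O (crtU m α) (latDia (q * m) c O (crtU m a⁻¹) (Φ a)))) := by
      intro a
      refine Fintype.sum_equiv (Equiv.addRight ((a : ZMod q) * g 1 1 * ((α⁻¹ : (ZMod q)ˣ) : ZMod q)))
        _ _ fun w => ?_
      rw [Equiv.coe_addRight, conjA_mul_unip hα.symm, actQ_mul,
        actQ_resLat (d := (a * α⁻¹)⁻¹) ?_ ?_ f (Φ a)]
      · rw [mul_inv_rev, inv_inv, map_mul, latDia_mul, Module.End.mul_apply]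
      · rw [mul_entry]
        show (0 : ZMod q) * _ + 1 * 0 = 0
        rw [zero_mul, mul_zero, add_zero]
      · rw [mul_entry]
        show (0 : ZMod q) * 0 + 1 * _ = _
        rw [zero_mul, zero_add, one_mul]
        rfl
    rw [Finset.sum_congr rfl fun a _ => hT a, Finset.sum_comm]
    refine Finset.sum_eq_zero fun w _ => ?_
    rw [← map_sum, ← map_sum, ← map_sum, h2, map_zero, map_zero, map_zero]

end Fermat.Agent.Auto
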