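/-
Vectors of the residual part fixed by the elements of inertia fixing the `q`-th roots of unity are
killed by `(σ - 1) (σ - ⟨cyc σ⟩)`.
-/
import Fermat.Agent.Auto.Inertia.Loc
import Fermat.Agent.Auto.Inertia.Sums
import Fermat.Agent.GalRep.Assembly

set_option autoImplicit false
set_option linter.style.haveILetI false
set_option linter.unusedSectionVars false

noncomputable section

namespace Fermat.Agent.Auto

open IsLocalRing CongruenceSubgroup
open Fermat.Agent.GalRep.Level
open Fermat.Agent.Galois (GQ)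
open Fermat.Agent.GalRep (GoodPrime)
open Fermat.Agent.Auto.Local (FixKerLvl SumTwistZero lvlRed eq_zero_of_fixKer_of_sum_zero actQ)
open scoped MatrixGroups

theorem sum_weighted_eq_zero {G L : Type*} [Group G] [Fintype G] [AddCommGroup L]
    (e : G → L →+ L) (he : ∀ a b x, e (a * b) x = e a (e b x)) (φ : G → L) (b : G) :
    ∑ a, e a⁻¹ ((φ (b * b * a) - φ (b * a)) - e b (φ (b * a) - φ a)) = 0 := by
  have key : ∀ f : G → L, ∑ a, e a⁻¹ (f (b * a)) = ∑ a, e a⁻¹ (e b (f a)) := fun f => by
    refine Fintype.sum_equiv (Equiv.mulLeft b) _ _ fun a => ?_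
    rw [Equiv.coe_mulLeft, mul_inv_rev, ← he, inv_mul_cancel_right]
  simp only [map_sub, Finset.sum_sub_distrib, mul_assoc]
  rw [key fun x => φ (b * x), key φ]
  abel

variable {q m : ℕ} [NeZero q] [NeZero m] [hqm : Fact (Nat.Coprime q m)] {Δ : Type} [CommGroup Δ]
  {c : (ZMod (q * m))ˣ →* Δ} {p : ℕ} [Fact p.Prime] {O : Type} [CommRing O] [IsDomain O]
  [IsDiscreteValuationRing O] [Algebra ℤ_[p] O] [Module.Finite ℤ_[p] O] [CharZero O]
  {S : Finset ℕ} {a : ℕ → O} {A : ValuationSubring (AlgebraicClosure ℚ)}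

/-- Fixed by the elements of inertia fixing the `q`-th roots of unity. -/
def FixIner (A : ValuationSubring (AlgebraicClosure ℚ)) (x : Lat (q * m) c O) : Prop :=
  ∀ h ∈ A.inertiaSubgroupIn ℚ, cycM q h = 1 → galLat (q * m) c p O h x = x

set_option maxHeartbeats 1000000 in
theorem apply_eq_zero_of_fixIner (hq : q.Prime) (hA : A.LiesOverPrime q) (hqp : q ≠ p)
    (hqm' : ¬ q ∣ m) (hne : NonEis S a) {u : Lat (q * m) c O}
    (huW : u ∈ latLoc (q * m) c O S a) (hu : FixIner (p := p) A u) {σ : GQ}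
    (hσ : σ ∈ A.inertiaSubgroupIn ℚ) :
    galLat (q * m) c p O σ (galLat (q * m) c p O σ u - latDia (q * m) c O (cycM (q * m) σ) u) -
      (galLat (q * m) c p O σ u - latDia (q * m) c O (cycM (q * m) σ) u) = 0 := by
  haveI : Fact q.Prime := ⟨hq⟩
  haveI : ∀ k, NeZero (p ^ k) := fun k => ⟨pow_ne_zero k (Fact.out : p.Prime).ne_zero⟩
  set D := cycM (q * m) σ with hD
  set b := cycM q σ with hb
  have hDb : D = crtU m b := cycM_inertia_crtU hq hA hqm' hσ
  have hinv : ∀ (g : GQ) y, galLat (q * m) c p O g (galLat (q * m) c p O g⁻¹ y) = y := fun g y => by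
    rw [← Module.End.mul_apply, ← map_mul, mul_inv_cancel, map_one, Module.End.one_apply]
  have hfix : ∀ {x : Lat (q * m) c O}, FixIner (p := p) A x → ∀ g ∈ A.inertiaSubgroupIn ℚ,
      FixIner (p := p) A (galLat (q * m) c p O g x) := fun {x} hx g hg h hh hh1 => by
    have h1 := hx (g⁻¹ * h * g) (mul_mem (mul_mem (inv_mem hg) hh) hg)
      (by rw [map_mul, map_mul, map_inv, hh1, mul_one, inv_mul_cancel])
    rw [mul_assoc, map_mul, map_mul, Module.End.mul_apply, Module.End.mul_apply] at h1
    have h2 := congrArg (galLat (q * m) c p O g) h1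
    rwa [hinv] at h2
  have hdia : ∀ {x : Lat (q * m) c O}, FixIner (p := p) A x → ∀ d,
      FixIner (p := p) A (latDia (q * m) c O d x) := fun {x} hx d h hh hh1 => by
    rw [← Module.End.mul_apply, (galLat_latDia h d).eq, Module.End.mul_apply, hx h hh hh1]
  have hsub : ∀ {x y : Lat (q * m) c O}, FixIner (p := p) A x → FixIner (p := p) A y →
      FixIner (p := p) A (x - y) := fun {x y} hx hy h hh hh1 => by
    rw [map_sub, hx h hh hh1, hy h hh hh1]
  set v := galLat (q * m) c p O σ (galLat (q * m) c p O σ u - latDia (q * m) c O D u) -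
    (galLat (q * m) c p O σ u - latDia (q * m) c O D u) with hv
  have hvfix : FixIner (p := p) A v :=
    hsub (hfix (hsub (hfix hu σ hσ) (hdia hu D)) σ hσ) (hsub (hfix hu σ hσ) (hdia hu D))
  have hW : ∀ {x : Lat (q * m) c O}, x ∈ latLoc (q * m) c O S a →
      galLat (q * m) c p O σ x ∈ latLoc (q * m) c O S a := fun hx => galLat_mem_latLoc σ hx
  have hvW : v ∈ latLoc (q * m) c O S a :=
    sub_mem (hW (sub_mem (hW huW) (latDia_mem_latLoc D huW)))
      (sub_mem (hW huW) (latDia_mem_latLoc D huW))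
  haveI : Module.IsTorsionFree ℤ_[p] O := Module.isTorsionFree_iff_algebraMap_injective.mpr
    (algebraMap_padic_injective (p := p) (O := O))
  refine eq_zero_of_resLat (p := p) fun f => ?_
  have hfixk : ∀ {x : Lat (q * m) c O}, FixIner (p := p) A x →
      FixKerLvl A q m (resLat c f x) := fun {x} hx k g hg hg1 => by
    rw [galG_resLat, hx g hg hg1]
  refine eq_zero_of_fixKer_of_sum_zero hq hA hqp hqm' (resLat c f v) (hfixk hvfix) ?_ ?_
  · -- the sums
    intro τ hτI hτc k g
    let φ : (ZMod q)ˣ → Lat (q * m) c O := fun x => galLat (q * m) c p O (τ x) u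
    have hφ : ∀ h ∈ A.inertiaSubgroupIn ℚ, galLat (q * m) c p O h u = φ (cycM q h) := fun h hh => by
      have h1 := hu ((τ (cycM q h))⁻¹ * h) (mul_mem (inv_mem (hτI _)) hh)
        (by rw [map_mul, map_inv, hτc, inv_mul_cancel])
      conv_rhs => rw [show φ (cycM q h) = galLat (q * m) c p O (τ (cycM q h)) u from rfl, ← h1]
      rw [← Module.End.mul_apply, ← map_mul, mul_inv_cancel_left]
    have hdcomm : ∀ (h : GQ) d x, galLat (q * m) c p O h (latDia (q * m) c O d x) =
        latDia (q * m) c O d (galLat (q * m) c p O h x) := fun h d x => by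
      rw [← Module.End.mul_apply, (galLat_latDia h d).eq, Module.End.mul_apply]
    have hσφ : ∀ x, galLat (q * m) c p O σ (φ x) = φ (b * x) := fun x => by
      show galLat (q * m) c p O σ (galLat (q * m) c p O (τ x) u) = _
      rw [← Module.End.mul_apply, ← map_mul, hφ _ (mul_mem hσ (hτI x)), map_mul, hτc]
    have hval : ∀ x, galLat (q * m) c p O (τ x) v = (φ (b * b * x) - φ (b * x)) -
        latDia (q * m) c O (crtU m b) (φ (b * x) - φ x) := fun x => by
      have hcomm : galLat (q * m) c p O (τ x) (galLat (q * m) c p O σ u) = φ (b * x) := by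
        rw [← Module.End.mul_apply, ← map_mul, hφ _ (mul_mem (hτI x) hσ), map_mul, hτc]
        exact congrArg φ (mul_comm x b)
      have hcomm2 : galLat (q * m) c p O (τ x) (galLat (q * m) c p O σ (galLat (q * m) c p O σ u)) =
          φ (b * b * x) := by
        rw [← Module.End.mul_apply, ← map_mul, ← Module.End.mul_apply, ← map_mul,
          hφ _ (mul_mem (mul_mem (hτI x) hσ) hσ), map_mul, map_mul, hτc]
        exact congrArg φ (((mul_assoc x b b).trans (mul_comm x (b * b))))
      simp only [hv, map_sub, hcomm2, hDb]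
      simp only [hdcomm, hcomm]
      show _ - latDia (q * m) c O (crtU m b) (φ (b * x)) - (φ (b * x) - latDia (q * m) c O (crtU m b)
        (galLat (q * m) c p O (τ x) u)) = _
      abel
    have hlin : ∀ x, lvlRed k (resLat c f (galLat (q * m) c p O (τ x) v)) =
        galG (isLevel_gamma (q * m)) (p ^ k) (τ x) (lvlRed k (resLat c f v)) := fun x =>
      (galG_resLat k (τ x) f v).symm
    simp only [← hlin]
    have h0 := sum_actQ_eq_zero (fun x => galLat (q * m) c p O (τ x) v) ?_ ?_ f g
    · have h1 := congrArg (lvlRed (q := q) (m := m) k) h0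
      simp only [map_sum, map_zero] at h1
      refine Eq.trans (Finset.sum_congr rfl fun w _ => Finset.sum_congr rfl fun x _ => ?_) h1
      rfl
    · simp only [hval, map_sub, Finset.sum_sub_distrib, mul_assoc]
      have e1 : ∀ φ' : (ZMod q)ˣ → Lat (q * m) c O, ∑ x, φ' (b * x) = ∑ x, φ' x := fun φ' =>
        Equiv.sum_comp (Equiv.mulLeft b) φ'
      rw [e1 fun x => φ (b * x), e1 fun x => latDia (q * m) c O (crtU m b) (φ x)]
      simp
    · simp only [hval]
      exact sum_weighted_eq_zero (fun x => (latDia (q * m) c O (crtU m x)).toAddMonoidHom)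
        (fun x y z => by
          show latDia (q * m) c O (crtU m (x * y)) z = _
          rw [map_mul, latDia_mul]; rfl) φ b
  · -- the Hecke relations
    intro N hqN hmN
    have hqm0 : 0 < q * N := Nat.mul_pos hq.pos (Nat.pos_of_ne_zero fun h => hqN (h ▸ dvd_zero q))
    obtain ⟨ℓ, hℓ, hℓS, hℓ1, hunit⟩ := hne (q * N) hqm0
    have hℓ1' : (ℓ : ZMod (q * N)) = 1 := by
      rw [← Nat.cast_one, ZMod.natCast_eq_natCast_iff]; exact hℓ1
    have hℓM : ¬ ℓ ∣ q * m := fun hd => by
      have hd' : ℓ ∣ q * N := hd.trans (Nat.mul_dvd_mul_left q hmN)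
      have h := congrArg (ZMod.castHom hd' (ZMod ℓ)) hℓ1'
      rw [map_natCast, ZMod.natCast_self, map_one] at h
      haveI : Fact (1 < ℓ) := ⟨hℓ.one_lt⟩
      exact zero_ne_one h
    haveI : NeZero ℓ := ⟨hℓ.ne_zero⟩
    obtain ⟨hsol, hinj⟩ := exists_latT_sub_eq (M := q * m) (c := c) (S := S) (a := a) hℓ hℓM hℓS hunit
    obtain ⟨w, hwW, hw⟩ := hsol v hvW
    refine ⟨ℓ, 0, resLat c f w, hℓ, hℓ1', hfixk fun h hh hh1 => ?_, ?_⟩
    · rw [← sub_eq_zero]
      refine hinj _ (sub_mem (galLat_mem_latLoc h hwW) hwW) ?_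
      rw [map_sub, ← Module.End.mul_apply, ← (galLat_latT h ⟨⟨ℓ, hℓ⟩, hℓM⟩).eq, Module.End.mul_apply,
        hw, map_add, map_smul, hvfix h hh hh1, smul_sub]
      abel
    · have h := isTransfer_resLat hmN hℓ hℓM hℓ1' f w
      rw [hw, map_add] at h
      have e : ((ℓ : O) + 1) • w = (ℓ + 1) • w := by
        rw [← Nat.cast_smul_eq_nsmul O, Nat.cast_add, Nat.cast_one]
      rw [e, map_nsmul] at h
      simpa using h

end Fermat.Agent.Auto
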