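/-
Ring algebra behind the tame relation: quadratic unipotence, products of square zero elements,
and kernels in reduced rings.
-/
import Mathlib

set_option autoImplicit false

namespace Fermat.Agent.Auto.InertiaAlg

variable {R : Type*} [Ring R]

/-- `S ^ r + S⁻ʳ = S + S⁻¹` gives `(S ^ (r - 1) - 1)² = 0`, if `1 + S + ⋯ + Sʳ` is a unit. -/
theorem sq_pow_sub_one_eq_zero {S T : R} (hST : S * T = 1) (hTS : T * S = 1) {n : ℕ}
    (h : S ^ (n + 1) + T ^ (n + 1) = S + T)
    (hu : IsUnit (∑ i ∈ Finset.range (n + 2), S ^ i)) :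
    (S ^ n - 1) * (S ^ n - 1) = 0 := by
  have hc : Commute T S := hTS.trans hST.symm
  have h1 : (S ^ (n + 2) - 1) * (S ^ n - 1) = 0 := by
    have e := congrArg (S ^ (n + 1) * ·) h
    simp only [mul_add, ← hc.symm.mul_pow, hST, one_pow, ← pow_succ] at e
    have e2 : S ^ (n + 1) * T = S ^ n := by rw [pow_succ, mul_assoc, hST, mul_one]
    rw [e2, ← pow_add] at e
    have e3 : (S ^ (n + 2) - 1) * (S ^ n - 1) =
        (S ^ (n + 1 + (n + 1)) + 1) - (S ^ (n + 1 + 1) + S ^ n) := by
      rw [sub_mul, mul_sub, one_mul, mul_one, ← pow_add, show n + 2 + n = n + 1 + (n + 1) by omega]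
      abel
    rw [e3, e, sub_self]
  rw [← geom_sum_mul, mul_assoc, hu.mul_right_eq_zero] at h1
  nth_rw 1 [← geom_sum_mul]
  rw [mul_assoc, h1, mul_zero]

/-- Square zero elements `a, b` such that `(1 + a) (1 + b) - 1` and `(1 - a) (1 + b) - 1` are
square zero anticommute. -/
theorem anticomm_of_sq {a b : R} (h2 : ∀ x : R, x + x = 0 → x = 0) (ha : a * a = 0)
    (hb : b * b = 0) (h₁ : ((1 + a) * (1 + b) - 1) * ((1 + a) * (1 + b) - 1) = 0)
    (h₂ : ((1 - a) * (1 + b) - 1) * ((1 - a) * (1 + b) - 1) = 0) :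
    a * b + b * a = 0 := by
  have hexp : ∀ x : R, x * x = 0 → ((1 + x) * (1 + b) - 1) * ((1 + x) * (1 + b) - 1) =
      x * b + b * x + b * (x * b) + x * (b * x) + x * (b * (x * b)) := fun x hx => by
    have e : (1 + x) * (1 + b) - 1 = x + b + x * b := by
      rw [mul_add, add_mul, add_mul, one_mul, one_mul, mul_one]; abel
    have e1 : x * (x * b) = 0 := by rw [← mul_assoc, hx, zero_mul]
    rw [e]
    simp only [mul_add, add_mul, mul_assoc, hx, hb, e1, mul_zero]
    abel
  rw [hexp a ha] at h₁
  rw [sub_eq_add_neg (1 : R) a, hexp (-a) (by rw [neg_mul_neg, ha])] at h₂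
  simp only [neg_mul, mul_neg, neg_neg] at h₂
  have h3 : a * (b * a) + a * (b * (a * b)) = 0 := h2 _ (by
    calc (a * (b * a) + a * (b * (a * b))) + (a * (b * a) + a * (b * (a * b)))
        = (a * b + b * a + b * (a * b) + a * (b * a) + a * (b * (a * b))) +
          (-(a * b) + -(b * a) + -(b * (a * b)) + a * (b * a) + a * (b * (a * b))) := by abel
      _ = 0 := by rw [h₁, h₂, add_zero])
  have h4 : a * (b * (a * b)) = 0 := by
    simpa [add_mul, mul_assoc, hb] using congrArg (· * b) h3
  rw [h4, add_zero] at h3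
  rw [h3, h4, add_zero, add_zero] at h₁
  have h5 : b * (a * b) = 0 := by
    simpa [mul_add, ← mul_assoc, hb] using congrArg (b * ·) h₁
  rwa [h5, add_zero] at h₁

/-- Three pairwise anticommuting elements, one of them also with `(1 + b) (1 + c) - 1`, have
product zero. -/
theorem mul_mul_eq_zero {a b c : R} (h2 : ∀ x : R, x + x = 0 → x = 0)
    (hab : a * b + b * a = 0) (hac : a * c + c * a = 0)
    (habc : a * ((1 + b) * (1 + c) - 1) + ((1 + b) * (1 + c) - 1) * a = 0) :
    a * (b * c) = 0 := by
  refine h2 _ ?_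
  have e : (1 + b) * (1 + c) - 1 = b + c + b * c := by
    rw [mul_add, add_mul, add_mul, one_mul, one_mul, mul_one]; abel
  rw [e] at habc
  have h1 : a * (b * c) + b * c * a = 0 := by
    calc a * (b * c) + b * c * a
        = (a * (b + c + b * c) + (b + c + b * c) * a) - ((a * b + b * a) + (a * c + c * a)) := by
          rw [mul_add, mul_add, add_mul, add_mul]; abel
      _ = 0 := by rw [habc, hab, hac, add_zero, sub_zero]
  have hca : c * a = -(a * c) := eq_neg_of_add_eq_zero_right hac
  have hba : b * a = -(a * b) := eq_neg_of_add_eq_zero_right hab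
  rwa [mul_assoc b c a, hca, mul_neg, ← mul_assoc b a c, hba, neg_mul, neg_neg, mul_assoc a b c]
    at h1

section Reduced

variable {O : Type*} [CommRing O] [IsDomain O] {L : Type*} [AddCommGroup L] [Module O L]
  [Module.IsTorsionFree O L]

open Polynomial in
/-- In a reduced algebra of operators, the kernels of `e³` and of `e` agree. -/
theorem eq_zero_of_cube (E : Subalgebra O (Module.End O L)) {e : Module.End O L} (he : e ∈ E)
    (hint : IsIntegral O e) (hred : ∀ z ∈ E, z * z = 0 → z = 0) {x : L}
    (hx : e (e (e x)) = 0) : e x = 0 := by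
  have hnil : ∀ (i : ℕ), ∀ z ∈ E, z ^ i = 0 → z = 0 := by
    intro i
    induction i using Nat.strong_induction_on with
    | _ i ih =>
      intro z hz hzi
      rcases le_or_gt i 1 with h | h
      · interval_cases i
        · rw [pow_zero] at hzi; rw [← one_mul z, hzi, zero_mul]
        · rwa [pow_one] at hzi
      · refine ih ((i + 1) / 2) (by omega) z hz (hred _ (pow_mem hz _) ?_)
        rw [← pow_add]
        exact pow_eq_zero_of_le (by omega) hzi
  obtain ⟨P, hP, hPe⟩ := hint
  obtain ⟨Q, hQ, hQ0⟩ := P.exists_eq_pow_rootMultiplicity_mul_and_not_dvd hP.ne_zero 0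
  rw [C_0, sub_zero] at hQ hQ0
  set i := P.rootMultiplicity 0
  have hq0 : Q.coeff 0 ≠ 0 := fun h => hQ0 (X_dvd_iff.mpr h)
  have hmem : e * aeval e Q ∈ E := mul_mem he (by
    have := aeval_algHom_apply E.val (⟨e, he⟩ : E) Q
    rw [show E.val ⟨e, he⟩ = e from rfl] at this
    rw [this]
    exact SetLike.coe_mem _)
  have hcomm : Commute e (aeval e Q) := by
    simpa using (Commute.all X Q).map (aeval e)
  have h0 : e ^ i * aeval e Q = 0 := by
    have := hPe
    rw [← aeval_def, hQ, map_mul, map_pow, aeval_X] at this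
    exact this
  have h1 : e * aeval e Q = 0 := hnil (i + 1) _ hmem (by
    rw [hcomm.mul_pow, pow_succ' (aeval e Q), pow_succ', mul_assoc e, ← mul_assoc (e ^ i), h0,
      zero_mul, mul_zero])
  have key : ∀ y, e (e y) = 0 → e y = 0 := fun y hy => by
    have h2 := LinearMap.congr_fun h1 y
    rw [← Q.divX_mul_X_add, map_add, map_mul, aeval_X, aeval_C] at h2
    simp only [Module.End.mul_apply, LinearMap.add_apply, Module.algebraMap_end_apply,
      LinearMap.zero_apply, map_add, map_smul] at h2
    have h3 : e (aeval e Q.divX (e y)) = 0 := by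
      have hc : Commute e (aeval e Q.divX) := by simpa using (Commute.all X Q.divX).map (aeval e)
      rw [← Module.End.mul_apply, hc.eq, Module.End.mul_apply, hy, map_zero]
    rw [h3, zero_add] at h2
    exact (smul_eq_zero.mp h2).resolve_left hq0
  exact key _ (key (e x) hx)

end Reduced

end Fermat.Agent.Auto.InertiaAlg
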