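/-
Tame inertia at a finite level is cyclic: the elements fixing the `r`-th roots of unity are
`(r - 1)`-st powers up to elements of `r`-power order.
-/
import Fermat.Agent.Galois.Tame
import Fermat.Agent.Auto.Local.Fixed
import Fermat.Agent.NewVec.Components

set_option autoImplicit false
set_option linter.style.haveILetI false
set_option linter.unusedSectionVars false

noncomputable section

namespace Fermat.Agent.Auto.Tame

open IsLocalRing
open Fermat.Agent.Galois
open Fermat.Agent.NewVec (inertiaFld)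
open Fermat.Agent.GalRep.Level (cycM cycM_spec cycM_eq_of_root)
open Fermat.Agent.GalRep.InertiaBase (rFld rVal rUnif rUnif_ne mem_rFld_of_mem exists_val_rFld)

local notation "ℚb" => AlgebraicClosure ℚ

variable {A : ValuationSubring (AlgebraicClosure ℚ)} {r : ℕ} (hr : r.Prime)
  (hA : A.LiesOverPrime r)

include hr hA in
/-- An element of tame character one on a finite Galois field has `r`-power order there. -/
theorem exists_pow_fix (F : IntermediateField ℚ ℚb) [FiniteDimensional ℚ F] [IsGalois ℚ F]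
    {w : A.decompositionSubgroup ℚ} (hw : w ∈ A.inertiaSubgroup ℚ)
    (hw1 : ∀ x ∈ F, ∀ hx : x ≠ 0, tameChar w x hx = 1) :
    ∃ j : ℕ, ∀ x ∈ F, ((w : GQ) ^ r ^ j) x = x := by
  classical
  set g : F ≃ₐ[ℚ] F := AlgEquiv.restrictNormalHom F (w : GQ) with hg
  obtain ⟨j, s, hs, hord⟩ := Nat.exists_eq_pow_mul_and_not_dvd (orderOf_pos g).ne' r hr.ne_one
  refine ⟨j, fun x hx => ?_⟩
  set u : A.decompositionSubgroup ℚ := w ^ r ^ j with hu
  have hu1 : ∀ y ∈ F, ∀ (hy : y ≠ 0) (i : ℕ), tameChar (u ^ i) y hy = 1 := fun y hyF hy i => by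
    rw [hu, ← pow_mul, tameChar_pow hw, hw1 y hyF hy, one_pow]
  have hrestr : ∀ (τ : GQ) (y : ℚb) (hy : y ∈ F),
      ((AlgEquiv.restrictNormal τ F ⟨y, hy⟩ : F) : ℚb) = τ y := fun τ y hy =>
    AlgEquiv.restrictNormal_commutes τ F ⟨y, hy⟩
  have hper : ∀ y ∈ F, ((u : GQ) ^ s) y = y := fun y hy => by
    have h1 : AlgEquiv.restrictNormalHom F ((w : GQ) ^ (r ^ j * s)) = 1 := by
      rw [map_pow, ← hg, ← hord]
      exact pow_orderOf_eq_one g
    rw [show (u : GQ) = (w : GQ) ^ r ^ j from SubmonoidClass.coe_pow _ _, ← pow_mul,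
      ← hrestr _ y hy]
    exact congrArg (fun e : F ≃ₐ[ℚ] F => ((e ⟨y, hy⟩ : F) : ℚb)) h1
  have hs0 : (s : ℚb) ≠ 0 := Nat.cast_ne_zero.2 fun h => hs (h ▸ dvd_zero r)
  set a : ℚb := (∑ i ∈ Finset.range s, ((u : GQ) ^ i) x) / s with ha
  have hF : ∀ (i : ℕ) (y : ℚb), y ∈ F → ((u : GQ) ^ i) y ∈ F := fun i y hy => by
    rw [← hrestr _ y hy]; exact SetLike.coe_mem _
  have haF : a ∈ F := div_mem (sum_mem fun i _ => hF i x hx) (natCast_mem F s)
  have hua : (u : GQ) a = a := by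
    rw [ha, map_div₀, map_natCast, map_sum]
    congr 1
    have h := Finset.sum_range_succ' (fun i => ((u : GQ) ^ i) x) s
    rw [Finset.sum_range_succ, pow_zero] at h
    simp only [hper x hx, AlgEquiv.one_apply] at h
    rw [add_right_cancel h]
    exact Finset.sum_congr rfl fun i _ => by rw [pow_succ', AlgEquiv.mul_apply]
  have huia : ∀ i : ℕ, ((u : GQ) ^ i) a = a := fun i => by
    induction i with
    | zero => simp
    | succ i ih => rw [pow_succ, AlgEquiv.mul_apply, hua, ih]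
  have hsum : ∑ i ∈ Finset.range s, ((u : GQ) ^ i) (x - a) = 0 := by
    simp only [map_sub, huia, Finset.sum_sub_distrib, Finset.sum_const, Finset.card_range,
      nsmul_eq_mul]
    rw [ha]
    field_simp
    ring
  suffices x - a = 0 by
    rw [sub_eq_zero] at this
    rw [this, ← SubmonoidClass.coe_pow]
    exact hua
  by_contra hd
  have h0 : residue A (∑ i ∈ Finset.range s, (⟨((u : GQ) ^ i) (x - a) / (x - a),
      div_mem_of_valuation_eq hd (valuation_apply_eq (pow_mem u.2 i) _)⟩ : A)) = 0 := by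
    rw [residue_eq_zero_iff]
    convert Ideal.zero_mem _
    rw [← Subtype.coe_inj, AddSubmonoidClass.coe_finsetSum, ← Finset.sum_div, hsum, zero_div]
    rfl
  rw [map_sum] at h0
  have h1 : ∀ i ∈ Finset.range s, residue A (⟨((u : GQ) ^ i) (x - a) / (x - a),
      div_mem_of_valuation_eq hd (valuation_apply_eq (pow_mem u.2 i) _)⟩ : A) = 1 :=
    fun i _ => hu1 (x - a) (sub_mem hx haF) hd i
  rw [Finset.sum_congr rfl h1, Finset.sum_const, Finset.card_range, nsmul_one] at h0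
  have hq0 : (r : ResidueField A) = 0 := by
    rw [← map_natCast (residue A), residue_eq_zero_iff, A.valuation_lt_one_iff]
    exact (ValuationSubring.mem_nonunits_iff A).1 hA
  obtain ⟨c, d, hcd⟩ := Nat.isCoprime_iff_coprime.2 ((Nat.Prime.coprime_iff_not_dvd hr).2 hs)
  have := congrArg (Int.cast : ℤ → ResidueField A) hcd
  push_cast at this
  rw [hq0, h0, mul_zero, mul_zero, add_zero] at this
  exact zero_ne_one this

theorem tameChar_mul_right (τ : A.decompositionSubgroup ℚ) {x y : ℚb} (hx : x ≠ 0) (hy : y ≠ 0) :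
    tameChar τ (x * y) (mul_ne_zero hx hy) = tameChar τ x hx * tameChar τ y hy := by
  rw [tameChar, tameChar, tameChar, ← map_mul]
  refine congrArg _ (Subtype.ext ?_)
  show (τ : GQ) (x * y) / (x * y) = (τ : GQ) x / x * ((τ : GQ) y / y)
  rw [map_mul, mul_div_mul_comm]

theorem tameChar_eq_one_of_zpow {τ : A.decompositionSubgroup ℚ}
    (hτ : τ ∈ A.inertiaSubgroup ℚ) {x ϖ : ℚb} (hx : x ≠ 0) (hϖ : ϖ ≠ 0) {k : ℤ}
    (hk : A.valuation x = A.valuation ϖ ^ k) (h : tameChar τ ϖ hϖ = 1) :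
    tameChar τ x hx = 1 := by
  rw [tameChar_congr hτ hx (zpow_ne_zero k hϖ) (by rw [map_zpow₀, hk])]
  have hnat : ∀ n : ℕ, tameChar τ (ϖ ^ n) (pow_ne_zero n hϖ) = 1 := fun n => by
    induction n with
    | zero =>
      rw [tameChar, ← map_one (residue A)]
      exact congrArg _ (Subtype.ext (by simp))
    | succ n ih =>
      simp only [pow_succ]
      rw [tameChar_mul_right τ (pow_ne_zero n hϖ) hϖ, ih, h, one_mul]
  rcases Int.eq_nat_or_neg k with ⟨n, rfl | rfl⟩
  · simpa only [zpow_natCast] using hnat n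
  · have h1 : tameChar τ (ϖ ^ n * (ϖ ^ n)⁻¹)
        (mul_ne_zero (pow_ne_zero n hϖ) (inv_ne_zero (pow_ne_zero n hϖ))) = 1 := by
      rw [tameChar, ← map_one (residue A)]
      exact congrArg _ (Subtype.ext (by simp [mul_inv_cancel₀ (pow_ne_zero n hϖ)]))
    rw [tameChar_mul_right τ (pow_ne_zero n hϖ) (inv_ne_zero (pow_ne_zero n hϖ)), hnat n,
      one_mul] at h1
    simpa only [zpow_neg, zpow_natCast] using h1

/-- The tame character at a fixed element, as a character of inertia. -/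
def tameHom (x : ℚb) (hx : x ≠ 0) : A.inertiaSubgroup ℚ →* ResidueField A where
  toFun τ := tameChar (τ : A.decompositionSubgroup ℚ) x hx
  map_one' := by simpa using tameChar_pow (A.inertiaSubgroup ℚ).one_mem x hx 0
  map_mul' τ τ' := tameChar_mul τ.2 x hx

theorem finite_range_tameHom (x : ℚb) (hx : x ≠ 0) :
    Finite (tameHom (A := A) x hx).toHomUnits.range := by
  let f : A.inertiaSubgroup ℚ → ℚb := fun τ => ((τ : A.decompositionSubgroup ℚ) : GQ) x
  haveI hfin : Finite (Set.range f) := by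
    refine Set.Finite.to_subtype (((minpoly ℚ x).rootSet_finite ℚb).subset ?_)
    rintro _ ⟨τ, rfl⟩
    rw [Polynomial.mem_rootSet]
    refine ⟨minpoly.ne_zero (Algebra.IsIntegral.isIntegral x), ?_⟩
    show Polynomial.aeval (((τ : A.decompositionSubgroup ℚ) : GQ).toAlgHom x) (minpoly ℚ x) = 0
    rw [Polynomial.aeval_algHom_apply, minpoly.aeval, map_zero]
  refine Finite.of_surjective (fun y : Set.range f => (⟨_, ⟨y.2.choose, rfl⟩⟩ :
    (tameHom (A := A) x hx).toHomUnits.range)) fun u => ?_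
  obtain ⟨_, τ, rfl⟩ := u
  refine ⟨⟨f τ, τ, rfl⟩, Subtype.ext (Units.ext ?_)⟩
  have h := Exists.choose_spec (⟨τ, rfl⟩ : ∃ τ', f τ' = f τ)
  show tameChar _ x hx = tameChar _ x hx
  exact congrArg (residue A) (Subtype.ext (congrArg (· / x) h))

include hr hA in
/-- Every exponent of the `r`-th roots of unity is taken by inertia. -/
theorem exists_inertia_cycM [NeZero r] (a : (ZMod r)ˣ) :
    ∃ t ∈ A.inertiaSubgroupIn ℚ, cycM r t = a := by
  have hMN : r = r * 1 := (mul_one r).symm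
  obtain ⟨s, hs, hsμ⟩ := NewVec.exists_fix_mu hr hA hMN hr.not_dvd_one a
  obtain ⟨σ, hσ, hz, -⟩ := Local.exists_inertia_agree (M := r) ⊥ hs
  exact ⟨σ, hσ, NewVec.cycM_eq_of_mu hr hA hMN hr.not_dvd_one (by
    rw [pow_one] at hsμ ⊢
    rw [hz, hsμ])⟩

include hr hA in
/-- Elements of inertia fixing the `r`-th roots of unity are `(r - 1)`-st powers at a finite
level, up to elements of `r`-power order. -/
theorem exists_pow_eq [NeZero r] (F : IntermediateField ℚ ℚb) [FiniteDimensional ℚ F] {h : GQ}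
    (hh : h ∈ A.inertiaSubgroupIn ℚ) (hc : cycM r h = 1) :
    ∃ g ∈ A.inertiaSubgroupIn ℚ, ∃ i j : ℕ,
      ∀ x ∈ F, ((h * (g ^ ((r - 1) * i))⁻¹) ^ r ^ j) x = x := by
  haveI : Fact r.Prime := ⟨hr⟩
  haveI : Normal ℚ ℚb := IsGalois.to_normal
  obtain ⟨z, hz⟩ := HasEnoughRootsOfUnity.exists_primitiveRoot ℚb r
  haveI : FiniteDimensional ℚ (IntermediateField.adjoin ℚ ({z} : Set ℚb)) :=
    IntermediateField.adjoin.finiteDimensional (Algebra.IsIntegral.isIntegral (R := ℚ) z)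
  let K : IntermediateField ℚ ℚb := F ⊔ IntermediateField.adjoin ℚ ({z} : Set ℚb)
  let L : IntermediateField ℚ ℚb := IntermediateField.normalClosure ℚ K ℚb
  haveI : FiniteDimensional ℚ L := normalClosure.is_finiteDimensional ℚ K ℚb
  haveI : Normal ℚ L := normalClosure.normal ℚ K ℚb
  haveI : IsGalois ℚ L := ⟨⟩
  have hle : K ≤ L := IntermediateField.le_normalClosure K
  have hzL : z ∈ L := hle ((le_sup_right : _ ≤ K) (IntermediateField.mem_adjoin_simple_self ℚ z))
  set ϖ := rVal A L (rUnif (L := L) hr hA) with hϖdef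
  have hϖ : ϖ ≠ 0 := rUnif_ne hr hA
  haveI := finite_range_tameHom (A := A) ϖ hϖ
  set Θ := (tameHom (A := A) ϖ hϖ).toHomUnits with hΘ
  obtain ⟨⟨u, τ₀, hτ₀⟩, hgen⟩ := IsCyclic.exists_generator (α := Θ.range)
  -- wild elements
  have hwild : ∀ w : A.inertiaSubgroup ℚ, Θ w = 1 →
      ∃ j : ℕ, ∀ x ∈ L, (((w : A.decompositionSubgroup ℚ) : GQ) ^ r ^ j) x = x := fun w hw =>
    exists_pow_fix hr hA L w.2 fun x hxL hx0 => by
      obtain ⟨k, hk⟩ := exists_val_rFld hr hA (mem_rFld_of_mem A L hxL) hx0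
      exact tameChar_eq_one_of_zpow w.2 hx0 hϖ hk (congrArg Units.val hw)
  let ι : A.inertiaSubgroup ℚ →* GQ :=
    (A.decompositionSubgroup ℚ).subtype.comp (A.inertiaSubgroup ℚ).subtype
  have hιI : ∀ w, ι w ∈ A.inertiaSubgroupIn ℚ := fun w => ⟨_, w.2, rfl⟩
  have key : ∀ t : A.inertiaSubgroup ℚ, ∃ i : ℕ, cycM r (ι t) = cycM r (ι τ₀) ^ i ∧
      ∃ j : ℕ, ∀ x ∈ L, ((ι t * (ι τ₀ ^ i)⁻¹) ^ r ^ j) x = x := fun t => by
    have h1 := (mem_powers_iff_mem_zpowers.mpr (hgen ⟨Θ t, t, rfl⟩))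
    obtain ⟨i, hi⟩ := h1
    have hti : Θ (t * (τ₀ ^ i)⁻¹) = 1 := by
      rw [map_mul, map_inv, map_pow, hτ₀, mul_inv_eq_one]
      exact (congrArg Subtype.val hi).symm
    obtain ⟨j, hj⟩ := hwild _ hti
    have hj' : ∀ x ∈ L, ((ι t * (ι τ₀ ^ i)⁻¹) ^ r ^ j) x = x := fun x hx => by
      rw [← map_pow, ← map_inv, ← map_mul]
      exact hj x hx
    refine ⟨i, ?_, j, hj'⟩
    have h2 : cycM r (ι t * (ι τ₀ ^ i)⁻¹) ^ r ^ j = 1 := by
      rw [← map_pow]
      refine cycM_eq_of_root _ hz ?_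
      rw [hj' z hzL, Units.val_one, ZMod.val_one, pow_one]
    have h3 : cycM r (ι t * (ι τ₀ ^ i)⁻¹) = 1 := by
      refine Eq.trans (Units.ext ?_).symm h2
      rw [Units.val_pow_eq_pow_val, ZMod.pow_card_pow]
    exact mul_inv_eq_one.mp (by simpa using h3)
  -- the exponent of the generator
  obtain ⟨a, ha⟩ := IsCyclic.exists_generator (α := (ZMod r)ˣ)
  obtain ⟨t, ⟨t', ht', rfl⟩, hta⟩ := exists_inertia_cycM hr hA a
  obtain ⟨i₁, hi₁, -⟩ := key ⟨t', ht'⟩
  have hord : orderOf (cycM r (ι τ₀)) = r - 1 := by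
    refine Nat.dvd_antisymm (ZMod.orderOf_units_dvd_card_sub_one _) ?_
    have hoa : orderOf a = r - 1 := by
      rw [orderOf_eq_card_of_forall_mem_zpowers ha, Nat.card_eq_fintype_card,
        ZMod.card_units r]
    rw [← hoa, ← hta]
    show orderOf (cycM r (ι ⟨t', ht'⟩)) ∣ _
    rw [hi₁]
    exact orderOf_pow_dvd i₁
  obtain ⟨h', hh', rfl⟩ := hh
  obtain ⟨i, hi, j, hj⟩ := key ⟨h', hh'⟩
  have hd : r - 1 ∣ i := by
    rw [← hord]
    exact orderOf_dvd_of_pow_eq_one (hi.symm.trans hc)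
  obtain ⟨i', rfl⟩ := hd
  exact ⟨ι τ₀, hιI τ₀, i', j, fun x hx => hj x (hle ((le_sup_left : F ≤ K) hx))⟩

end Fermat.Agent.Auto.Tame
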