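/-
Inertia at `r` on a residually unipotent part: wild inertia acts trivially, Frobenius raises to the
`r`-th power, and elements fixing the `r`-th roots of unity are square zero unipotent.
-/
import Fermat.Agent.Auto.Inertia.Algebra
import Fermat.Agent.Auto.Inertia.Tame
import Fermat.Agent.Auto.Inertia.Reduce
import Fermat.Agent.Galois.Tame

set_option autoImplicit false
set_option linter.style.haveILetI false
set_option linter.unusedSectionVars false

noncomputable section

namespace Fermat.Agent.Auto.Core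

open IsLocalRing
open Fermat.Agent.Galois (GQ)
open Fermat.Agent.GalRep.Level (cycM)
open Fermat.Agent.Auto.Reduce

variable {O : Type} [CommRing O] [IsLocalRing O] [IsNoetherianRing O] {L : Type} [AddCommGroup L]
  [Module O L]

/-- The action on a stable submodule. -/
def galSub (G : GQ →* Module.End O L) (W : Submodule O L) (h : ∀ g, ∀ x ∈ W, G g x ∈ W) :
    GQ →* Module.End O W where
  toFun g := (G g).restrict (h g)
  map_one' := LinearMap.ext fun x => Subtype.ext (by
    show G 1 (x : L) = x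
    rw [map_one]; rfl)
  map_mul' a b := LinearMap.ext fun x => Subtype.ext (by
    show G (a * b) (x : L) = G a (G b (x : L))
    rw [map_mul]; rfl)

theorem coe_galSub (G : GQ →* Module.End O L) (W : Submodule O L) (h : ∀ g, ∀ x ∈ W, G g x ∈ W)
    (g : GQ) (x : W) : ((galSub G W h g x : W) : L) = G g (x : L) := rfl

theorem map_inv_congr {G R : Type*} [Group G] [Monoid R] (f : G →* R) {a b : G} (h : f a = f b) :
    f a⁻¹ = f b⁻¹ := by
  calc f a⁻¹ = f a⁻¹ * (f b * f b⁻¹) := by rw [← map_mul f b, mul_inv_cancel, map_one, mul_one]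
    _ = f a⁻¹ * f a * f b⁻¹ := by rw [h, mul_assoc]
    _ = f b⁻¹ := by rw [← map_mul f a⁻¹, inv_mul_cancel, map_one, one_mul]

variable {W : Type} [AddCommGroup W] [Module O W] [Module.Finite O W]
  (G : GQ →* Module.End O W) {A : ValuationSubring (AlgebraicClosure ℚ)} {p r : ℕ}
  (hp : p.Prime) (hpO : (p : O) ∈ maximalIdeal O) (hr : r.Prime) (hrp : r ≠ p)
  (hA : A.LiesOverPrime r)
  (hcont : ∀ k : ℕ, ∃ F : IntermediateField ℚ (AlgebraicClosure ℚ), FiniteDimensional ℚ F ∧
    ∀ e : GQ, (∀ x ∈ F, e x = x) → redEnd W k (G e) = 1)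
  (hres : ∀ σ ∈ A.inertiaSubgroupIn ℚ, ∀ x : W, ∃ j : ℕ,
    ((G σ - 1) ^ j) x ∈ maximalIdeal O • (⊤ : Submodule O W))

include hp hpO hres in
/-- Inertia acts through elements of `p`-power order. -/
theorem exists_pow_red_eq_one {σ : GQ} (hσ : σ ∈ A.inertiaSubgroupIn ℚ) (k : ℕ) :
    ∃ b : ℕ, redEnd W k (G σ) ^ p ^ b = 1 :=
  exists_pow_eq_one hp (redEnd_natCast hpO k) (by
    have h := isNilpotent_redEnd (hres σ hσ) k
    rwa [map_sub, map_one] at h)

include hp hpO hr hrp hres in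
/-- An element of inertia of `r`-power order at a level acts trivially there. -/
theorem red_eq_one_of_pow {w : GQ} (hw : w ∈ A.inertiaSubgroupIn ℚ) {k j : ℕ}
    (hj : redEnd W k (G (w ^ r ^ j)) = 1) : redEnd W k (G w) = 1 := by
  obtain ⟨b, hb⟩ := exists_pow_red_eq_one G hp hpO hres hw k
  rw [map_pow, map_pow] at hj
  exact eq_one_of_coprime (((Nat.coprime_primes hr hp).mpr hrp).pow j b) hj hb

include hp hpO hr hrp hA hcont hres in
/-- Frobenius raises inertia to the `r`-th power. -/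
theorem map_frob_conj {f σ : GQ} (hf : A.IsFrobeniusAt f r) (hσ : σ ∈ A.inertiaSubgroupIn ℚ) :
    G (f * σ * f⁻¹) = G (σ ^ r) := by
  have hw : f * σ * f⁻¹ * (σ ^ r)⁻¹ ∈ A.inertiaSubgroupIn ℚ := by
    refine mul_mem ?_ (inv_mem (pow_mem hσ r))
    obtain ⟨s, hs, rfl⟩ := hσ
    have hN : (A.inertiaSubgroup ℚ).Normal := MonoidHom.normal_ker _
    set t : A.decompositionSubgroup ℚ := ⟨f, hf.mem_decompositionSubgroup⟩ with ht
    refine ⟨t * s * t⁻¹, hN.conj_mem _ hs t, ?_⟩
    rw [map_mul, map_mul, map_inv]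
    rfl
  have h1 : G (f * σ * f⁻¹ * (σ ^ r)⁻¹) = 1 := eq_of_redEnd fun k => by
    rw [map_one]
    obtain ⟨F, hF, hFk⟩ := hcont k
    haveI := hF
    haveI : Normal ℚ (IntermediateField.normalClosure ℚ F (AlgebraicClosure ℚ)) :=
      normalClosure.normal ℚ F (AlgebraicClosure ℚ)
    haveI : IsGalois ℚ (IntermediateField.normalClosure ℚ F (AlgebraicClosure ℚ)) := ⟨⟩
    obtain ⟨j, hj⟩ := Galois.tame_relation hr hA hf hσ
      (IntermediateField.normalClosure ℚ F (AlgebraicClosure ℚ))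
    exact red_eq_one_of_pow G hp hpO hr hrp hres hw
      (hFk _ fun x hx => hj x (F.le_normalClosure hx))
  calc G (f * σ * f⁻¹) = G (f * σ * f⁻¹ * (σ ^ r)⁻¹) * G (σ ^ r) := by
        rw [← map_mul, inv_mul_cancel_right]
    _ = G (σ ^ r) := by rw [h1, one_mul]

include hp hpO hr hrp hA hcont hres in
/-- Square zero unipotence of the elements fixing the `r`-th roots of unity. -/
theorem sq_sub_one_eq_zero [NeZero r]
    (hquad : ∀ g ∈ A.inertiaSubgroupIn ℚ, (G g ^ (r - 1) - 1) * (G g ^ (r - 1) - 1) = 0)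
    {h : GQ} (hh : h ∈ A.inertiaSubgroupIn ℚ) (hc : cycM r h = 1) :
    (G h - 1) * (G h - 1) = 0 := by
  refine eq_zero_of_redEnd fun k => ?_
  obtain ⟨F, hF, hFk⟩ := hcont k
  haveI := hF
  obtain ⟨g, hg, i, j, hj⟩ := Tame.exists_pow_eq hr hA F hh hc
  have hw : h * (g ^ ((r - 1) * i))⁻¹ ∈ A.inertiaSubgroupIn ℚ :=
    mul_mem hh (inv_mem (pow_mem hg _))
  have h1 := red_eq_one_of_pow G hp hpO hr hrp hres hw (hFk _ hj)
  have h2 : redEnd W k (G h) = redEnd W k ((G g ^ (r - 1)) ^ i) := by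
    calc redEnd W k (G h)
        = redEnd W k (G (h * (g ^ ((r - 1) * i))⁻¹)) * redEnd W k (G (g ^ ((r - 1) * i))) := by
          rw [← map_mul, ← map_mul, inv_mul_cancel_right]
      _ = redEnd W k ((G g ^ (r - 1)) ^ i) := by rw [h1, one_mul, map_pow, pow_mul]
  have h3 : ((G g ^ (r - 1)) ^ i - 1) * ((G g ^ (r - 1)) ^ i - 1) = 0 := by
    rw [← geom_sum_mul]
    set P := ∑ l ∈ Finset.range i, (G g ^ (r - 1)) ^ l
    have hc' : Commute (G g ^ (r - 1) - 1) P :=
      Commute.sum_right _ _ _ fun l _ =>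
        ((Commute.refl (G g ^ (r - 1))).pow_right l).sub_left (Commute.one_left _)
    rw [mul_assoc, ← mul_assoc (G g ^ (r - 1) - 1) P, hc'.eq, mul_assoc, hquad g hg, mul_zero,
      mul_zero]
  rw [map_mul, map_sub, map_one, h2, ← map_one (redEnd W k), ← map_sub, ← map_mul, h3, map_zero]

include hp hpO hr hrp hA hcont hres in
/-- The cube of an operator killing the fixed vectors vanishes. -/
theorem cube_eq_zero [NeZero r] (h2 : ∀ x : Module.End O W, x + x = 0 → x = 0)
    (hquad : ∀ g ∈ A.inertiaSubgroupIn ℚ, (G g ^ (r - 1) - 1) * (G g ^ (r - 1) - 1) = 0)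
    (e : Module.End O W) (he : ∀ g, Commute (G g) e)
    (hfix : ∀ y : W, (∀ h ∈ A.inertiaSubgroupIn ℚ, cycM r h = 1 → G h y = y) → e y = 0)
    (x : W) : e (e (e x)) = 0 := by
  let P1 : GQ → Prop := fun h => h ∈ A.inertiaSubgroupIn ℚ ∧ cycM r h = 1
  have hsq : ∀ h, P1 h → (G h - 1) * (G h - 1) = 0 := fun h hh =>
    sq_sub_one_eq_zero G hp hpO hr hrp hA hcont hres hquad hh.1 hh.2
  have hmul : ∀ a b, P1 a → P1 b → P1 (a * b) := fun a b ha hb =>
    ⟨mul_mem ha.1 hb.1, by rw [map_mul, ha.2, hb.2, one_mul]⟩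
  have hinv : ∀ a, P1 a → G a⁻¹ = 1 - (G a - 1) := fun a ha => by
    calc G a⁻¹ = G a⁻¹ * (G a * (1 - (G a - 1)) + (G a - 1) * (G a - 1)) := by
          rw [show G a * (1 - (G a - 1)) + (G a - 1) * (G a - 1) = 1 by noncomm_ring, mul_one]
      _ = 1 - (G a - 1) := by
          rw [hsq a ha, add_zero, ← mul_assoc, ← map_mul, inv_mul_cancel, map_one, one_mul]
  have hanti : ∀ a b, P1 a → P1 b →
      (G a - 1) * (G b - 1) + (G b - 1) * (G a - 1) = 0 := fun a b ha hb => by
    refine InertiaAlg.anticomm_of_sq h2 (hsq a ha) (hsq b hb) ?_ ?_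
    · rw [add_sub_cancel, add_sub_cancel, ← map_mul]
      exact hsq _ (hmul a b ha hb)
    · rw [← hinv a ha, add_sub_cancel, ← map_mul]
      exact hsq _ (hmul _ b ⟨inv_mem ha.1, by rw [map_inv, ha.2, inv_one]⟩ hb)
  have htriple : ∀ a b c, P1 a → P1 b → P1 c →
      (G a - 1) * ((G b - 1) * (G c - 1)) = 0 := fun a b c ha hb hc => by
    refine InertiaAlg.mul_mul_eq_zero h2 (hanti a b ha hb) (hanti a c ha hc) ?_
    rw [add_sub_cancel, add_sub_cancel, ← map_mul]
    exact hanti a _ ha (hmul b c hb hc)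
  have hfix' : ∀ y : W, (∀ a, P1 a → (G a - 1) y = 0) → e y = 0 := fun y hy =>
    hfix y fun h hh hh1 => sub_eq_zero.mp (hy h ⟨hh, hh1⟩)
  have hcomm : ∀ a, Commute (G a - 1) e := fun a => (he a).sub_left (Commute.one_left e)
  have he' : ∀ a y, (G a - 1) (e y) = e ((G a - 1) y) := fun a y => LinearMap.congr_fun (hcomm a).eq y
  have h2' : ∀ b c, P1 b → P1 c → (G b - 1) ((G c - 1) (e x)) = 0 := fun b c hb hc => by
    rw [he', he']
    exact hfix' _ fun a ha => LinearMap.congr_fun (htriple a b c ha hb hc) x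
  have h1' : ∀ b, P1 b → (G b - 1) (e (e x)) = 0 := fun b hb => by
    rw [he']
    exact hfix' _ fun a ha => h2' a b ha hb
  exact hfix' _ h1'

end Fermat.Agent.Auto.Core
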