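/-
The quadratic relation from the invariance of the twisted trace, and the resulting vanishing.
-/
import Fermat.Agent.Auto.Inertia.Core
import Fermat.Agent.Galois.Places

set_option autoImplicit false
set_option linter.style.haveILetI false
set_option linter.unusedSectionVars false

noncomputable section

namespace Fermat.Agent.Auto.Core

open IsLocalRing
open Fermat.Agent.Galois (GQ)
open Fermat.Agent.GalRep.Level (cycM)
open Fermat.Agent.Auto.Reduce

variable {O : Type} [CommRing O] [IsDomain O] [IsDiscreteValuationRing O] {L : Type} [AddCommGroup L]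
  [Module O L] [Module.Finite O L] [Module.Free O L]

set_option maxHeartbeats 1000000 in
/-- An operator in a reduced algebra killing the fixed vectors of the residually unipotent part
kills the part. -/
theorem apply_eq_zero {A : ValuationSubring (AlgebraicClosure ℚ)} {p r a : ℕ} [NeZero r]
    (hp : p.Prime) (hpO : (p : O) ∈ maximalIdeal O) (hchar : ∀ x : O, x + x = 0 → x = 0)
    (hr : r.Prime) (hrp : r ≠ p) (hA : A.LiesOverPrime r) (hru : IsUnit ((r + 1 : ℕ) : O))
    (G δ : GQ →* Module.End O L) (hGδ : ∀ g h, Commute (G g) (δ h))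
    (hδδ : ∀ g h, Commute (δ g) (δ h)) (hδfin : ∀ g, δ g ^ p ^ a = 1)
    (hδr : ∀ g ∈ A.inertiaSubgroupIn ℚ, δ (g ^ r) = δ g)
    (hconj : ∀ f, ∀ g ∈ A.inertiaSubgroupIn ℚ,
      G (f * g * f⁻¹) * δ (f * g * f⁻¹) + G (f * g * f⁻¹)⁻¹ * δ (f * g * f⁻¹)⁻¹ =
        G g * δ g + G g⁻¹ * δ g⁻¹)
    (W : Submodule O L) (hGW : ∀ g, ∀ x ∈ W, G g x ∈ W) (hδW : ∀ g, ∀ x ∈ W, δ g x ∈ W)
    (hsat : ∀ (k : ℕ) (x : W), (x : L) ∈ maximalIdeal O ^ k • (⊤ : Submodule O L) →
      x ∈ maximalIdeal O ^ k • (⊤ : Submodule O W))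
    (hcont : ∀ k : ℕ, ∃ F : IntermediateField ℚ (AlgebraicClosure ℚ), FiniteDimensional ℚ F ∧
      ∀ e : GQ, (∀ x ∈ F, e x = x) → ∀ v, G e v - v ∈ maximalIdeal O ^ k • (⊤ : Submodule O L))
    (hres : ∀ σ ∈ A.inertiaSubgroupIn ℚ, ∀ x ∈ W, ∃ j : ℕ,
      ((G σ - 1) ^ j) x ∈ maximalIdeal O • (⊤ : Submodule O L))
    (E : Subalgebra O (Module.End O L)) (hred : ∀ z ∈ E, z * z = 0 → z = 0)
    (e : Module.End O L) (heE : e ∈ E) (heG : ∀ g, Commute (G g) e) (heW : ∀ x ∈ W, e x ∈ W)
    (hfix : ∀ y ∈ W, (∀ h ∈ A.inertiaSubgroupIn ℚ, cycM r h = 1 → G h y = y) → e y = 0)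
    {x : L} (hx : x ∈ W) : e x = 0 := by
  haveI : IsNoetherian O L := isNoetherian_of_isNoetherianRing_of_finite O L
  set GW := galSub G W hGW with hGWdef
  set δW := galSub δ W hδW with hδWdef
  have hc : ∀ k : ℕ, ∃ F : IntermediateField ℚ (AlgebraicClosure ℚ), FiniteDimensional ℚ F ∧
      ∀ s : GQ, (∀ x ∈ F, s x = x) → redEnd W k (GW s) = 1 := fun k => by
    obtain ⟨F, hF, hFk⟩ := hcont k
    refine ⟨F, hF, fun s hs => ?_⟩
    rw [← map_one (redEnd W k), redEnd_eq_iff]
    exact fun v => hsat k _ (hFk s hs v)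
  have hr' : ∀ σ ∈ A.inertiaSubgroupIn ℚ, ∀ v : W, ∃ j : ℕ,
      ((GW σ - 1) ^ j) v ∈ maximalIdeal O • (⊤ : Submodule O W) := fun σ hσ v => by
    obtain ⟨j, hj⟩ := hres σ hσ v v.2
    refine ⟨j, ?_⟩
    have key : ∀ n : ℕ, (((GW σ - 1) ^ n) v : L) = ((G σ - 1) ^ n) (v : L) := fun n => by
      induction n with
      | zero => rfl
      | succ n ih =>
        rw [pow_succ', pow_succ', Module.End.mul_apply, Module.End.mul_apply, ← ih]
        rfl
    rw [← pow_one (maximalIdeal O)] at hj ⊢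
    exact hsat 1 _ (by rw [key]; exact hj)
  have hcGδ : ∀ g h, Commute (GW g) (δW h) := fun g h => LinearMap.ext fun v =>
    Subtype.ext (LinearMap.congr_fun (hGδ g h).eq (v : L))
  have hquad : ∀ g ∈ A.inertiaSubgroupIn ℚ,
      (GW g ^ (r - 1) - 1) * (GW g ^ (r - 1) - 1) = 0 := by
    intro g hg
    obtain ⟨f, hf⟩ := Galois.exists_isFrobeniusAt hr hA
    obtain ⟨n, hn⟩ : ∃ n, r = n + 1 := ⟨r - 1, (Nat.succ_pred_eq_of_pos hr.pos).symm⟩
    have hG1 : GW (f * g * f⁻¹) = GW (g ^ r) := map_frob_conj GW hp hpO hr hrp hA hc hr' hf hg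
    have hδ1 : δ (f * g * f⁻¹) = δ (g ^ r) := by
      rw [hδr g hg, map_mul, map_mul, (hδδ f g).eq, mul_assoc, ← map_mul, mul_inv_cancel, map_one,
        mul_one]
    have hδ2 : δW (f * g * f⁻¹) = δW (g ^ r) := LinearMap.ext fun v =>
      Subtype.ext (LinearMap.congr_fun hδ1 (v : L))
    have hSr : (GW g * δW g) ^ r + (GW g⁻¹ * δW g⁻¹) ^ r = GW g * δW g + GW g⁻¹ * δW g⁻¹ := by
      have h1 : GW (f * g * f⁻¹) * δW (f * g * f⁻¹) + GW (f * g * f⁻¹)⁻¹ * δW (f * g * f⁻¹)⁻¹ =
          GW g * δW g + GW g⁻¹ * δW g⁻¹ := LinearMap.ext fun v => Subtype.ext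
        (LinearMap.congr_fun (hconj f g hg) (v : L))
      rw [map_inv_congr GW hG1, map_inv_congr δW hδ2, hG1, hδ2, ← inv_pow, map_pow, map_pow, map_pow,
        map_pow, ← (hcGδ g g).mul_pow, ← (hcGδ g⁻¹ g⁻¹).mul_pow] at h1
      exact h1
    have hST : GW g * δW g * (GW g⁻¹ * δW g⁻¹) = 1 := by
      rw [mul_assoc, ← mul_assoc (δW g), ← (hcGδ g⁻¹ g).eq, mul_assoc, ← map_mul δW, mul_inv_cancel,
        map_one, mul_one, ← map_mul, mul_inv_cancel, map_one]
    have hTS : GW g⁻¹ * δW g⁻¹ * (GW g * δW g) = 1 := by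
      rw [mul_assoc, ← mul_assoc (δW g⁻¹), ← (hcGδ g g⁻¹).eq, mul_assoc, ← map_mul δW, inv_mul_cancel,
        map_one, mul_one, ← map_mul, inv_mul_cancel, map_one]
    have hu : IsUnit (∑ i ∈ Finset.range (n + 2), (GW g * δW g) ^ i) := by
      refine isUnit_of_redEnd ?_
      rw [map_sum]
      simp only [map_pow]
      refine isUnit_geom_sum (isNilpotent_sub_one hp ?_ (b := (exists_pow_red_eq_one GW hp hpO hr' hg 1).choose + a) ?_) ?_
      · simpa using redEnd_natCast (W := W) hpO 1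
      · have hd : δW g ^ p ^ a = 1 := by
          rw [← map_pow]
          refine LinearMap.ext fun v => Subtype.ext ?_
          show δ (g ^ p ^ a) (v : L) = v
          rw [map_pow, hδfin]; rfl
        rw [← map_pow, (hcGδ g g).mul_pow, map_mul, map_pow, map_pow, pow_add, pow_mul,
          (exists_pow_red_eq_one GW hp hpO hr' hg 1).choose_spec, one_pow, one_mul, mul_comm (p ^ _),
          pow_mul, ← map_pow, hd, map_one, one_pow]
      · rw [← map_natCast ((redEnd W 1).comp (algebraMap O (Module.End O W))),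
          show n + 2 = r + 1 by omega]
        exact hru.map _
    have := InertiaAlg.sq_pow_sub_one_eq_zero hST hTS (n := n) (by rw [← hn]; exact hSr) hu
    have hδn : δW g ^ n = 1 := by
      have e : δW g ^ n * δW g = δW g := by
        rw [← pow_succ, ← hn, ← map_pow]
        exact LinearMap.ext fun v => Subtype.ext (LinearMap.congr_fun (hδr g hg) (v : L))
      calc δW g ^ n = δW g ^ n * (δW g * δW g⁻¹) := by
            rw [← map_mul, mul_inv_cancel, map_one, mul_one]
        _ = 1 := by rw [← mul_assoc, e, ← map_mul, mul_inv_cancel, map_one]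
    rwa [(hcGδ g g).mul_pow, hδn, mul_one, show n = r - 1 by omega] at this
  have h2 : ∀ z : Module.End O W, z + z = 0 → z = 0 := fun z hz => LinearMap.ext fun v => by
    have h := congrArg (fun w : W => Module.Free.chooseBasis O L |>.repr (w : L))
      (LinearMap.congr_fun hz v)
    refine Subtype.ext ((Module.Free.chooseBasis O L).ext_elem fun i => ?_)
    have hi := congrArg (fun t => t i) h
    simp only [LinearMap.add_apply, Submodule.coe_add, map_add, LinearMap.zero_apply,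
      ZeroMemClass.coe_zero, map_zero, Finsupp.add_apply, Finsupp.zero_apply] at hi ⊢
    exact hchar _ hi
  have hcube := cube_eq_zero GW hp hpO hr hrp hA hc hr' h2 hquad (e.restrict heW)
    (fun g => LinearMap.ext fun v => Subtype.ext (LinearMap.congr_fun (heG g).eq (v : L)))
    (fun y hy => Subtype.ext (hfix y y.2 fun h hh hh1 => congrArg Subtype.val (hy h hh hh1)))
    ⟨x, hx⟩
  exact InertiaAlg.eq_zero_of_cube E heE (Algebra.IsIntegral.isIntegral e) hred
    (congrArg Subtype.val hcube)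

end Fermat.Agent.Auto.Core
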